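import Fermat.Agent.Lifting.TW.LevelRing
import Fermat.Agent.Lifting.Assembly.Classify
import Fermat.Agent.Lifting.Patch.Defs

/-!
# The patching datum of a Taylor–Wiles level

A Hecke system of a Taylor–Wiles level with diamond operators, free over their group ring and with
coinvariants a power of the minimal module, gives a `TWDatum` over the minimal deformation ring.
-/

set_option autoImplicit false
set_option linter.style.haveILetI false

noncomputable section

namespace Fermat.Agent.Lifting.TW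

open IsLocalRing Module Polynomial
open Fermat.Agent.Arith (QBar)
open Fermat.Agent.Deform (Gal IsResAlg)
open Fermat.Agent.Lifting.Assembly

/-- An algebra whose generators act through a map onto a faithful module maps to its algebra. -/
theorem exists_descend {O T₁ T₀ M₁ M₀ : Type} [CommRing O] [CommRing T₁] [Algebra O T₁]
    [CommRing T₀] [Algebra O T₀] [AddCommGroup M₁] [Module O M₁] [Module T₁ M₁]
    [IsScalarTower O T₁ M₁] [AddCommGroup M₀] [Module O M₀] [Module T₀ M₀]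
    [IsScalarTower O T₀ M₀] [FaithfulSMul T₀ M₀] (ω : M₁ →ₗ[O] M₀) (hω : Function.Surjective ω)
    {G : Set T₁} (hG : Algebra.adjoin O G = ⊤)
    (h : ∀ t ∈ G, ∃ u : T₀, ∀ x, ω (t • x) = u • ω x) :
    ∃ g : T₁ →ₐ[O] T₀, ∀ t x, ω (t • x) = g t • ω x := by
  have key : ∀ t, ∃ u : T₀, ∀ x, ω (t • x) = u • ω x := fun t => by
    have ht : t ∈ Algebra.adjoin O G := hG ▸ Algebra.mem_top
    induction ht using Algebra.adjoin_induction with
    | mem t ht => exact h t ht
    | algebraMap c => exact ⟨algebraMap O T₀ c, fun x => by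
        rw [algebraMap_smul, algebraMap_smul, map_smul]⟩
    | add a b _ _ ha hb =>
      obtain ⟨u, hu⟩ := ha
      obtain ⟨v, hv⟩ := hb
      exact ⟨u + v, fun x => by rw [add_smul, map_add, hu, hv, add_smul]⟩
    | mul a b _ _ ha hb =>
      obtain ⟨u, hu⟩ := ha
      obtain ⟨v, hv⟩ := hb
      exact ⟨u * v, fun x => by rw [mul_smul, hu, hv, mul_smul]⟩
  choose f hf using key
  have huniq : ∀ {u v : T₀}, (∀ x, u • ω x = v • ω x) → u = v := fun {u v} he =>
    eq_of_smul_eq_smul (α := M₀) fun z => by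
      obtain ⟨x, rfl⟩ := hω z
      exact he x
  exact ⟨{ toFun := f
           map_one' := huniq fun x => by rw [← hf, one_smul, one_smul]
           map_mul' := fun a b => huniq fun x => by rw [← hf, mul_smul, mul_smul, hf, hf]
           map_zero' := huniq fun x => by rw [← hf, zero_smul, zero_smul, map_zero]
           map_add' := fun a b => huniq fun x => by rw [← hf, add_smul, map_add, hf, hf, add_smul]
           commutes' := fun c => huniq fun x => by
             rw [← hf, algebraMap_smul, algebraMap_smul, map_smul] }, hf⟩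

variable {O : Type} [CommRing O] [IsDomain O] [IsDiscreteValuationRing O]
  [IsAdicComplete (maximalIdeal O) O] [Finite (ResidueField O)]
  {ρbar : ResidualGaloisRep (ResidueField O)} {p : ℕ} [Fact p.Prime]
  {K : PKind} {N S S₀ : Finset ℕ} {s : ℕ → ℤ}

/-- `2` is a unit when an odd prime is in the maximal ideal. -/
theorem isUnit_two_of_odd {R : Type} [CommRing R] [IsLocalRing R] (hp2 : p ≠ 2)
    (hp : (p : R) ∈ maximalIdeal R) : IsUnit (2 : R) := by
  obtain ⟨k, hk⟩ := (Fact.out : p.Prime).odd_of_ne_two hp2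
  by_contra h
  refine (maximalIdeal.isMaximal R).ne_top ((Ideal.eq_top_iff_one _).mpr ?_)
  have h1 : (p : R) - 2 * (k : R) ∈ maximalIdeal R :=
    sub_mem hp (Ideal.mul_mem_right _ _ ((mem_maximalIdeal _).mpr h))
  rwa [hk, Nat.cast_add, Nat.cast_mul, Nat.cast_ofNat, Nat.cast_one, add_sub_cancel_left] at h1

/-- **The patching datum of a level.** -/
theorem exists_twDatum (hp2 : p ≠ 2) (hp : (p : O) ∈ maximalIdeal O)
    (DR : GaloisRep.DeformationRingData O ρbar (liftCondition O p K N ∅ s))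
    (hSS : S₀ ⊆ S) (H₀ : HeckeSystem O ρbar (liftCondition O p K N ∅ s) S₀) (φ : DR.R →ₐ[O] H₀.T)
    (hφ : ∀ σ, φ (DR.ρ.trace σ) = H₀.ρ.trace σ) [Module DR.R H₀.M]
    (hsmul : ∀ (a : DR.R) (v : H₀.M), a • v = φ a • v)
    {r n m d : ℕ} (hm : 0 < m) {qv : Fin r → ℕ} (hprime : ∀ i, (qv i).Prime)
    (hqN : ∀ i, qv i ∉ insert p N) (hq1 : ∀ i, p ∣ qv i - 1)
    (hfrob : ∀ i, ∀ P : ValuationSubring QBar, P.LiesOverPrime (qv i) →
      ∀ φ : Gal, P.IsFrobeniusAt φ (qv i) → ∃ α β : ResidueField O, α ≠ β ∧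
        LinearMap.charpoly (ρbar.ρ φ) = (X - C α) * (X - C β))
    (DQ : GaloisRep.DeformationRingData O ρbar (liftCondition O p K N (Finset.univ.image qv) s))
    (γ : MvPowerSeries (Fin r) O →ₐ[O] DQ.R) (hγ : Function.Surjective γ)
    {P : Fin r → ValuationSubring QBar} (hP : ∀ i, (P i).LiesOverPrime (qv i)) {σ : Fin r → Gal}
    (hσ : ∀ i, IsTameElt p (qv i) (P i) (σ i))
    (H₁ : HeckeSystem O ρbar (liftCondition O p K N (Finset.univ.image qv) s) S)
    (y : Fin r → Module.End O H₁.M) (hycomm : ∀ i j, y i * y j = y j * y i)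
    (hyop : ∀ i, ∀ ℓ : ℕ, ℓ.Prime → ℓ ∉ S → ∀ x, y i (H₁.op ℓ • x) = H₁.op ℓ • y i x)
    (hypow : ∀ i, y i ^ p ^ n = 1) (basis : Fin d → H₁.M)
    (hbasis : Function.Bijective fun c : Fin d × (Fin r → Fin (p ^ n)) →₀ O =>
      c.sum fun iv x => x • ((List.ofFn fun j => y j ^ (iv.2 j : ℕ)).prod) (basis iv.1))
    (htr : ∀ i x, H₁.ρ.trace (σ i) • x = y i x + (y i ^ (p ^ n - 1)) x)
    (ω : H₁.M →ₗ[O] (Fin m → H₀.M)) (hω : Function.Surjective ω)
    (hωop : ∀ ℓ : ℕ, ℓ.Prime → ℓ ∉ S → ∀ x, ω (H₁.op ℓ • x) = H₀.op ℓ • ω x)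
    (hker : LinearMap.ker ω = ⨆ i, LinearMap.range (y i - 1)) :
    Nonempty (TWDatum O p r d n DR.R (Fin m → H₀.M)) := by
  classical
  obtain ⟨π, hπ, t, hπs, hkerπ, ht, hπe⟩ :=
    exists_levelRing hp2 hp DR hprime hqN hq1 hfrob DQ hP hσ
  obtain ⟨φ₁, -, hφ₁⟩ := exists_classify DQ H₁
  haveI : FaithfulSMul H₀.T (Fin m → H₀.M) := ⟨fun {a b} h => eq_of_smul_eq_smul (α := H₀.M)
    fun v => congrFun (h fun _ => v) ⟨0, hm⟩⟩
  obtain ⟨g, hg⟩ := exists_descend (T₁ := H₁.T) (T₀ := H₀.T) ω hω H₁.adjoin_op (by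
    rintro _ ⟨ℓ, ⟨hℓ, hℓS⟩, rfl⟩
    exact ⟨H₀.op ℓ, hωop ℓ hℓ hℓS⟩)
  have hgop : ∀ ℓ : ℕ, ℓ.Prime → ℓ ∉ S → g (H₁.op ℓ) = H₀.op ℓ := fun ℓ hℓ hℓS =>
    eq_of_smul_eq_smul (α := Fin m → H₀.M) fun z => by
      obtain ⟨x, rfl⟩ := hω z
      rw [← hg, hωop ℓ hℓ hℓS]
  haveI := H₀.isNoetherianRing
  haveI := H₀.isAdicComplete
  -- the two maps to the minimal algebra agree
  have hcomp : g.comp φ₁ = φ.comp π := by
    have h2 := isUnit_two_of_odd hp2 hp
    have hl1 := Lifting.isLocalHom_algHom H₀.isResAlg (g.comp φ₁)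
    have hl2 := Lifting.isLocalHom_algHom H₀.isResAlg (φ.comp π)
    have hQp : p ∉ Finset.univ.image qv := fun h => by
      obtain ⟨i, -, hi⟩ := Finset.mem_image.mp h
      exact hqN i (hi ▸ Finset.mem_insert_self p N)
    have hQN : ∀ q ∈ Finset.univ.image qv, q ∉ N := fun q hq h => by
      obtain ⟨i, -, rfl⟩ := Finset.mem_image.mp hq
      exact hqN i (Finset.mem_insert_of_mem h)
    refine algHom_universal_ext DQ H₀.residue_surjective
      (liftCondition_of_minimal (K := K) (Or.inl ⟨hQp, rfl⟩) hQN H₀.cond fun h => absurd h hQp)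
      H₀.residual_isEquiv hl1 hl2
      (classifies_of_traces h2 DQ H₀.isResAlg H₀.ρ H₀.residual_isEquiv _ hl1 S
        fun ℓ hℓ hℓS Pl hPl τ hτ => ?_)
      (classifies_of_traces h2 DQ H₀.isResAlg H₀.ρ H₀.residual_isEquiv _ hl2 S
        fun ℓ hℓ hℓS Pl hPl τ hτ => ?_)
    · rw [AlgHom.comp_apply, hφ₁, H₁.trace_frobenius ℓ hℓ hℓS Pl hPl τ hτ, hgop ℓ hℓ hℓS,
        ← H₀.trace_frobenius ℓ hℓ (fun h => hℓS (hSS h)) Pl hPl τ hτ]
    · rw [AlgHom.comp_apply, map_trace DQ π DR.ρ ⟨hπ, hπe⟩ τ, hφ]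
  letI : Module DQ.R H₁.M := Module.compHom H₁.M (φ₁ : DQ.R →+* H₁.T)
  have hsmul₁ : ∀ (a : DQ.R) (x : H₁.M), a • x = φ₁ a • x := fun _ _ => rfl
  haveI : IsScalarTower O DQ.R H₁.M := ⟨fun c a x => by
    rw [hsmul₁, hsmul₁, map_smul, smul_assoc]⟩
  have hy : ∀ i (a : H₁.T) (x : H₁.M), y i (a • x) = a • y i x := fun i a => by
    have ha : a ∈ Algebra.adjoin O (H₁.op '' {ℓ | ℓ.Prime ∧ ℓ ∉ S}) :=
      H₁.adjoin_op ▸ Algebra.mem_top
    induction ha using Algebra.adjoin_induction with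
    | mem a ha =>
      obtain ⟨ℓ, ⟨hℓ, hℓS⟩, rfl⟩ := ha
      exact hyop i ℓ hℓ hℓS
    | algebraMap c => intro x; rw [algebraMap_smul, algebraMap_smul, map_smul]
    | add a b _ _ ha hb => intro x; rw [add_smul, map_add, ha, hb, add_smul]
    | mul a b _ _ ha hb => intro x; rw [mul_smul, ha, hb, mul_smul]
  refine ⟨{
    A := DQ.R
    γ := γ
    γ_surjective := hγ
    π := π
    π_surjective := hπs
    t := t
    ker_π := hkerπ
    M := H₁.M
    y := y
    y_comm := hycomm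
    y_linear := fun i a x => hy i (φ₁ a) x
    y_pow := hypow
    basis := basis
    basis_bijective := hbasis
    t_rel := fun i x => ?_
    ω := ω
    ω_surjective := hω
    ω_linear := fun a x => ?_
    ker_ω := hker }⟩
  · rw [hsmul₁, hsmul₁, ht, map_mul, map_sub, map_ofNat, hφ₁, mul_smul, sub_smul, htr]
    congr 2
    rw [← map_ofNat (algebraMap O H₁.T) 2, algebraMap_smul]
  · rw [hsmul₁, hg, show g (φ₁ a) = φ (π a) from DFunLike.congr_fun hcomp a]
    exact funext fun j => (hsmul (π a) (ω x j)).symm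

end Fermat.Agent.Lifting.TW

end
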