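import Fermat.Agent.Deform.Residual
import Fermat.Prelude.Thm_IsLocalRing_isAdicComplete_of_module_finite
import Fermat.Prelude.Def_GaloisRep_DeformationRingData
import Fermat.Prelude.Def_GaloisRep_DeformationCondition

/-!
# A deformation ring as a quotient of a larger one

If the universal representation of a larger condition acquires the smaller condition modulo the
elements `t i`, and these vanish in the smaller ring, then the smaller ring is the quotient by the
`t i`.
-/

set_option autoImplicit false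

noncomputable section

namespace Fermat.Agent.Lifting.TW

open IsLocalRing Deform Module

variable {O : Type} [CommRing O] [IsDomain O] [IsDiscreteValuationRing O]
  [IsAdicComplete (maximalIdeal O) O] {ρbar : ResidualGaloisRep (ResidueField O)}
  {C C' : ∀ ⦃A : Type⦄ [CommRing A] [IsLocalRing A] [Algebra O A], GaloisRepAdic A → Prop}

/-- Base change along a composite. -/
theorem isEquiv_baseChange_comp {A B B' : Type} [CommRing A] [IsLocalRing A] [CommRing B]
    [IsLocalRing B] [CommRing B'] [IsLocalRing B'] (f : A →+* B) (hf : IsLocalHom f) (g : B →+* B')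
    (hg : IsLocalHom g) (hgf : IsLocalHom (g.comp f)) {ρ : GaloisRepAdic A} {ρ' : GaloisRepAdic B}
    (h : (ρ.baseChangeAlong f hf).IsEquiv ρ') :
    (ρ.baseChangeAlong (g.comp f) hgf).IsEquiv (ρ'.baseChangeAlong g hg) := by
  let b := Module.finBasisOfFinrankEq A ρ.V ρ.finrank_eq
  let b' := Module.finBasisOfFinrankEq B ρ'.V ρ'.finrank_eq
  have hr := (isCont_matOf ρ b).map f hf
  obtain ⟨P, hPu, hP⟩ := exists_conj_of_isEquiv (hr := hr) (hr' := isCont_matOf ρ' b')
    (isEquiv_trans (isEquiv_symm (isEquiv_baseChangeAlong_matOf f hf ρ b))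
      (isEquiv_trans h (isEquiv_toRep_matOf ρ' b')))
  obtain ⟨u, rfl⟩ := hPu
  refine isEquiv_trans (isEquiv_baseChangeAlong_matOf (g.comp f) hgf ρ b)
    (isEquiv_trans ?_ (isEquiv_symm (isEquiv_baseChangeAlong_matOf g hg ρ' b')))
  set v : (M2 B')ˣ := (Units.map g.mapMatrix.toMonoidHom u)⁻¹ with hv
  refine isEquiv_trans (isEquiv_conj _ v) (isEquiv_toRep_congr ?_ _ _)
  refine MonoidHom.ext fun σ => ?_
  have h1 : matOf ρ' b' σ = (u : M2 B) * mapM f (matOf ρ b) σ * (↑u⁻¹ : M2 B) := by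
    rw [hP σ, mul_assoc, Units.mul_inv, mul_one]
  show ((v⁻¹ : (M2 B')ˣ) : M2 B') * g.mapMatrix (mapM f (matOf ρ b) σ) * (v : M2 B') =
    g.mapMatrix (matOf ρ' b' σ)
  rw [h1, map_mul, map_mul, hv, inv_inv]
  rfl

/-- The base change along the identity. -/
theorem isEquiv_baseChange_id {A : Type} [CommRing A] [IsLocalRing A] (f : A →+* A)
    (hf : IsLocalHom f) (hid : ∀ x, f x = x) (ρ : GaloisRepAdic A) :
    (ρ.baseChangeAlong f hf).IsEquiv ρ := by
  let b := Module.finBasisOfFinrankEq A ρ.V ρ.finrank_eq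
  refine isEquiv_trans (isEquiv_baseChangeAlong_matOf f hf ρ b)
    (isEquiv_trans (isEquiv_toRep_congr ?_ _ (isCont_matOf ρ b))
      (isEquiv_symm (isEquiv_toRep_matOf ρ b)))
  exact MonoidHom.ext fun σ => Matrix.ext fun i j => hid _

/-- Two endomorphisms compatible with the universal representation agree. -/
theorem algHom_universal_ext (D : GaloisRep.DeformationRingData O ρbar C) {A : Type} [CommRing A]
    [IsLocalRing A] [IsNoetherianRing A] [IsAdicComplete (maximalIdeal A) A] [Algebra O A]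
    [IsLocalHom (algebraMap O A)] (hA : Function.Surjective (residue A ∘ algebraMap O A))
    {ρA : GaloisRepAdic A} (hCA : C ρA)
    (hres : ρA.residual.IsEquiv (ρbar.baseChangeAlong (ResidueField.map (algebraMap O A))))
    {φ ψ : D.R →ₐ[O] A} (hφ : IsLocalHom (φ : D.R →+* A)) (hψ : IsLocalHom (ψ : D.R →+* A))
    (h1 : (D.ρ.baseChangeAlong (φ : D.R →+* A) hφ).IsEquiv ρA)
    (h2 : (D.ρ.baseChangeAlong (ψ : D.R →+* A) hψ).IsEquiv ρA) : φ = ψ := by
  obtain ⟨χ, -, huniq⟩ := D.universal A hA ρA hCA hres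
  rw [huniq φ ⟨hφ, h1⟩, huniq ψ ⟨hψ, h2⟩]

omit [IsDomain O] [IsDiscreteValuationRing O] [IsAdicComplete (maximalIdeal O) O] in
/-- A deformation condition passes to quotients of complete rings. -/
theorem baseChange_of_surjective (hC : GaloisRep.IsDeformationCondition O C) {A B : Type}
    [CommRing A] [IsLocalRing A] [IsNoetherianRing A] [IsAdicComplete (maximalIdeal A) A]
    [Algebra O A] [IsLocalHom (algebraMap O A)] [CommRing B] [IsLocalRing B] [IsNoetherianRing B]
    [IsAdicComplete (maximalIdeal B) B] [Algebra O B] [IsLocalHom (algebraMap O B)]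
    (hA : Function.Surjective (residue A ∘ algebraMap O A))
    (hB : Function.Surjective (residue B ∘ algebraMap O B)) (f : A →ₐ[O] B)
    (hf : IsLocalHom (f : A →+* B)) (hsurj : Function.Surjective f) {ρ : GaloisRepAdic A}
    (h : C ρ) : C (ρ.baseChangeAlong (f : A →+* B) hf) := by
  refine (hC.iff_forall_surjective ‹_› hB _).mpr fun T _ _ _ hT q hq hqsurj => ?_
  have hqf : IsLocalHom ((q : B →+* T).comp (f : A →+* B)) := RingHom.isLocalHom_comp _ _
  exact hC.of_isEquiv hT (isEquiv_baseChange_comp (f : A →+* B) hf (q : B →+* T) hq hqf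
      (isEquiv_refl _))
    ((hC.iff_forall_surjective ‹_› hA ρ).mp h hT (q.comp f) hqf (hqsurj.comp hsurj))

/-- Residual equivalences pass along maps of `O`-algebras. -/
theorem residual_isEquiv_baseChange [Finite (ResidueField O)] (habs : ρbar.IsAbsolutelyIrreducible)
    {A B : Type} [CommRing A] [IsLocalRing A] [Algebra O A] [IsLocalHom (algebraMap O A)]
    [CommRing B] [IsLocalRing B] [Algebra O B] [IsLocalHom (algebraMap O B)]
    (hA : Function.Surjective (residue A ∘ algebraMap O A))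
    (hB : Function.Surjective (residue B ∘ algebraMap O B)) (f : A →ₐ[O] B)
    (hf : IsLocalHom (f : A →+* B)) {ρ : GaloisRepAdic A}
    (h : ρ.residual.IsEquiv (ρbar.baseChangeAlong (ResidueField.map (algebraMap O A)))) :
    (ρ.baseChangeAlong (f : A →+* B) hf).residual.IsEquiv
      (ρbar.baseChangeAlong (ResidueField.map (algebraMap O B))) := by
  let bb := Module.finBasisOfFinrankEq (ResidueField O) ρbar.V ρbar.finrank_eq
  obtain ⟨W, hW⟩ := exists_rigid ρbar habs bb
  obtain ⟨b, hl⟩ := exists_lifts_basis hW ⟨‹_›, hA⟩ ρ h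
  letI := (f : A →+* B).toAlgebra
  refine residual_isEquiv_of_lifts hW ⟨‹_›, hB⟩ _ (b.baseChange B) ?_
  rw [matOf_baseChangeAlong (f : A →+* B) hf ρ b]
  exact hl.map _ f hf

/-- **The smaller ring is the quotient.** -/
theorem exists_surjective_ker_eq_span [Finite (ResidueField O)]
    (hCond : GaloisRep.IsDeformationCondition O C) (D : GaloisRep.DeformationRingData O ρbar C)
    (D' : GaloisRep.DeformationRingData O ρbar C') (hC : C D'.ρ) {ι : Type} (t : ι → D.R)
    (ht : ∀ i, t i ∈ maximalIdeal D.R)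
    (hkill : ∀ (φ : D.R →ₐ[O] D'.R) (hφ : IsLocalHom (φ : D.R →+* D'.R)),
      (D.ρ.baseChangeAlong (φ : D.R →+* D'.R) hφ).IsEquiv D'.ρ → ∀ i, φ (t i) = 0)
    (hquot : ∀ [IsLocalRing (D.R ⧸ Ideal.span (Set.range t))]
      (h : IsLocalHom (Ideal.Quotient.mk (Ideal.span (Set.range t)))),
      C' (D.ρ.baseChangeAlong (Ideal.Quotient.mk (Ideal.span (Set.range t))) h)) :
    ∃ (π : D.R →ₐ[O] D'.R) (hπ : IsLocalHom (π : D.R →+* D'.R)),
      Function.Surjective π ∧ RingHom.ker π = Ideal.span (Set.range t) ∧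
        (D.ρ.baseChangeAlong (π : D.R →+* D'.R) hπ).IsEquiv D'.ρ := by
  obtain ⟨π, ⟨hπ, hπe⟩, -⟩ := D.universal D'.R D'.residue_surjective D'.ρ hC D'.residual_isEquiv
  set I := Ideal.span (Set.range t) with hI
  have hIm : I ≤ maximalIdeal D.R := Ideal.span_le.mpr (by rintro _ ⟨i, rfl⟩; exact ht i)
  have hkerI : I ≤ RingHom.ker π :=
    Ideal.span_le.mpr (by rintro _ ⟨i, rfl⟩; exact hkill π hπ hπe i)
  have : Nontrivial (D.R ⧸ I) := Ideal.Quotient.nontrivial_iff.mpr
    fun h => (maximalIdeal.isMaximal D.R).ne_top (eq_top_iff.mpr (h ▸ hIm))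
  have : IsLocalRing (D.R ⧸ I) :=
    IsLocalRing.of_surjective' (Ideal.Quotient.mk I) Ideal.Quotient.mk_surjective
  have hmk : IsLocalHom (Ideal.Quotient.mk I) :=
    IsLocalHom.of_surjective _ Ideal.Quotient.mk_surjective
  have halg : IsLocalHom (algebraMap D.R (D.R ⧸ I)) := hmk
  have : IsAdicComplete (maximalIdeal (D.R ⧸ I)) (D.R ⧸ I) :=
    IsLocalRing.isAdicComplete_of_module_finite (𝒪 := D.R)
  have hO : IsLocalHom (algebraMap O (D.R ⧸ I)) :=
    ⟨fun x hx => IsUnit.of_map (algebraMap O D.R) x (hmk.map_nonunit _ hx)⟩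
  have hsurjA : Function.Surjective (residue (D.R ⧸ I) ∘ algebraMap O (D.R ⧸ I)) := fun z => by
    obtain ⟨y, rfl⟩ := residue_surjective z
    obtain ⟨x, rfl⟩ := Ideal.Quotient.mk_surjective y
    obtain ⟨c, hc⟩ := D.residue_surjective (residue D.R x)
    refine ⟨c, ?_⟩
    have hm := mem_maximalIdeal _ |>.mp ((residue_eq_zero_iff _).mp
      (show residue D.R (algebraMap O D.R c - x) = 0 by rw [map_sub, ← hc]; exact sub_self _))
    show residue (D.R ⧸ I) (Ideal.Quotient.mk I (algebraMap O D.R c)) = _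
    rw [← sub_eq_zero, ← map_sub, ← map_sub, residue_eq_zero_iff, mem_maximalIdeal]
    exact fun hu => hm (hmk.map_nonunit _ hu)
  set ρ' := D.ρ.baseChangeAlong (Ideal.Quotient.mk I) hmk with hρ'
  have hres' : ρ'.residual.IsEquiv
      (ρbar.baseChangeAlong (ResidueField.map (algebraMap O (D.R ⧸ I)))) :=
    residual_isEquiv_baseChange D.absIrr D.residue_surjective hsurjA (Ideal.Quotient.mkₐ O I) hmk
      D.residual_isEquiv
  obtain ⟨φ₀, ⟨hφ₀, hφ₀e⟩, -⟩ := D'.universal (D.R ⧸ I) hsurjA ρ' (hquot hmk) hres'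
  let π₁ : (D.R ⧸ I) →ₐ[O] D'.R := Ideal.Quotient.liftₐ I π fun x hx => hkerI hx
  have hπ₁ : IsLocalHom (π₁ : (D.R ⧸ I) →+* D'.R) := ⟨fun y hy => by
    obtain ⟨x, rfl⟩ := Ideal.Quotient.mk_surjective y
    exact (hπ.map_nonunit x hy).map _⟩
  -- `π₁ ∘ φ₀` fixes the universal representation
  have hcomp : π₁.comp φ₀ = AlgHom.id O D'.R := by
    refine algHom_universal_ext D' D'.residue_surjective D'.isOfType D'.residual_isEquiv
      (@RingHom.isLocalHom_comp _ _ _ _ _ _ (π₁ : (D.R ⧸ I) →+* D'.R) (φ₀ : D'.R →+* D.R ⧸ I) hπ₁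
        hφ₀) ⟨fun x hx => hx⟩ ?_ (isEquiv_baseChange_id _ _ (fun _ => rfl) _)
    refine isEquiv_trans (isEquiv_baseChange_comp (φ₀ : D'.R →+* D.R ⧸ I) hφ₀
      (π₁ : (D.R ⧸ I) →+* D'.R) hπ₁ _ hφ₀e) ?_
    have hc : IsLocalHom ((π₁ : (D.R ⧸ I) →+* D'.R).comp (Ideal.Quotient.mk I)) := hπ
    exact isEquiv_trans (isEquiv_symm (isEquiv_baseChange_comp (Ideal.Quotient.mk I) hmk
      (π₁ : (D.R ⧸ I) →+* D'.R) hπ₁ hc (isEquiv_refl _))) hπe
  refine ⟨π, hπ, fun y => ?_, le_antisymm (fun x hx => ?_) hkerI, hπe⟩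
  · obtain ⟨x, hx⟩ := Ideal.Quotient.mk_surjective (φ₀ y)
    refine ⟨x, ?_⟩
    show π₁ (Ideal.Quotient.mk I x) = y
    rw [hx]
    exact DFunLike.congr_fun hcomp y
  -- `φ₀ ∘ π` is the projection
  have hCq : C ρ' := baseChange_of_surjective hCond D.residue_surjective hsurjA
    (Ideal.Quotient.mkₐ O I) hmk Ideal.Quotient.mk_surjective D.isOfType
  have hcomp' : φ₀.comp π = Ideal.Quotient.mkₐ O I := by
    refine algHom_universal_ext D hsurjA hCq hres'
      (@RingHom.isLocalHom_comp _ _ _ _ _ _ (φ₀ : D'.R →+* D.R ⧸ I) (π : D.R →+* D'.R) hφ₀ hπ)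
      hmk ?_ (isEquiv_refl _)
    exact isEquiv_trans (isEquiv_baseChange_comp (π : D.R →+* D'.R) hπ
      (φ₀ : D'.R →+* D.R ⧸ I) hφ₀ _ hπe) hφ₀e
  have h := DFunLike.congr_fun hcomp' x
  rw [AlgHom.comp_apply, show π x = 0 from hx, map_zero] at h
  exact Ideal.Quotient.eq_zero_iff_mem.mp h.symm

end Fermat.Agent.Lifting.TW
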