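import Fermat.Agent.Results.S56
import Fermat.Agent.Lifting.Setup.Basic
import Fermat.Agent.Lifting.Curve.Point
import Fermat.Agent.Lifting.Deform.Universal

/-!
# Taylor–Wiles primes and deformation rings of a context

For a context the residual hypotheses of the Taylor–Wiles lemma hold; it supplies, for each `n`,
`r` primes congruent to `1` modulo `p ^ (n + 1)` with split distinct residual Frobenius eigenvalues,
whose deformation ring needs at most `r` generators. The deformation rings exist as soon as the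
residual representation satisfies the condition at `p`.
-/

set_option autoImplicit false
set_option linter.style.haveILetI false

noncomputable section

open IsLocalRing Polynomial
open Fermat.Agent.Deform (Gal IsResAlg)

namespace Fermat.Agent.Lifting

/-- A representation of a type over a coefficient algebra shows that the residual representation is
of that type. -/
theorem cond_residual_of_rep {O : Type} [CommRing O] [IsDomain O] [IsDiscreteValuationRing O]
    {ρbar : ResidualGaloisRep (ResidueField O)} (habs : ρbar.IsAbsolutelyIrreducible)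
    {D : Cond O} (hD : GaloisRep.IsDeformationCondition O D) {A : Type} [CommRing A]
    [IsLocalRing A] [IsNoetherianRing A] [IsAdicComplete (maximalIdeal A) A] [Algebra O A]
    (hA : IsResAlg O A) (ρ : GaloisRepAdic A)
    (hres : haveI := hA.isLocalHom
      ρ.residual.IsEquiv (ρbar.baseChangeAlong (ResidueField.map (algebraMap O A))))
    (hρ : D ρ) : D (GaloisRepAdic.ofResidualGaloisRep ρbar) := by
  haveI := hA.isLocalHom
  let bb := Module.finBasisOfFinrankEq (ResidueField O) ρbar.V ρbar.finrank_eq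
  let bb' : Module.Basis (Fin 2) (ResidueField O) (GaloisRepAdic.ofResidualGaloisRep ρbar).V := bb
  obtain ⟨W, hW⟩ := Deform.exists_rigid ρbar habs bb
  obtain ⟨e, he⟩ := Deform.exists_lifts_basis hW hA ρ hres
  have hk := Deform.isResAlg_residueField (𝒪 := O)
  have hsurj : Function.Surjective (Deform.augment hA) := fun x => by
    obtain ⟨o, rfl⟩ := residue_surjective (R := O) x
    exact ⟨algebraMap O A o, (Deform.augment hA).commutes o⟩
  have hloc : IsLocalHom (Deform.augment hA : A →+* ResidueField O) :=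
    IsLocalHom.of_surjective _ hsurj
  have hm : Deform.mapM (Deform.augment hA : A →+* ResidueField O) (Deform.matOf ρ e) =
      Deform.matOf (GaloisRepAdic.ofResidualGaloisRep ρbar) bb' := by
    ext σ i j
    exact (he σ i j).trans (by rw [hW]; rfl)
  exact cond_congr hD hk (Deform.isEquiv_trans (Deform.isEquiv_baseChangeAlong_matOf _ hloc ρ e)
    (Deform.isEquiv_trans
      (Deform.isEquiv_toRep_congr hm _ (Deform.isCont_matOf _ bb'))
      (Deform.isEquiv_symm
        (Deform.isEquiv_toRep_matOf (GaloisRepAdic.ofResidualGaloisRep ρbar) bb'))))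
    (cond_map_of_surjective hD hA hk _ hloc hsurj hρ)

namespace Ctx

variable {O : Type} [CommRing O] [IsDomain O] [IsDiscreteValuationRing O]
  {p : ℕ} [Fact p.Prime] [CharP (ResidueField O) p] (C : Ctx O p)

/-! ### The residual hypotheses -/

theorem isAbsolutelyIrreducible_ρbar : C.ρbar.IsAbsolutelyIrreducible :=
  Curve.isAbsolutelyIrreducible_residual C.delta_ne C.p_ne_two C.irreducible

theorem detIsCyclotomic_ρbar :
    (GaloisRepAdic.ofResidualGaloisRep C.ρbar).DetIsCyclotomic p :=
  Curve.detIsCyclotomic_residual C.delta_ne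

theorem exists_split_ρbar (σ : Gal) :
    ∃ α β : ResidueField O, LinearMap.charpoly (C.ρbar.ρ σ) = (X - .C α) * (X - .C β) :=
  Curve.exists_split_charpoly C.delta_ne (fun f hf => C.roots f hf) σ

theorem indexTwo_ρbar (K : Type) [Field K] [Algebra (ResidueField O) K] (G : Subgroup Gal)
    (hG : G.index = 2) (V : Submodule K (C.ρbar.baseChange K).V)
    (hV : ∀ σ ∈ G, ∀ x ∈ V, (C.ρbar.baseChange K).ρ σ x ∈ V) : V = ⊥ ∨ V = ⊤ :=
  Curve.indexTwo_irreducible_residual C.delta_ne C.semistable C.p_ne_two C.irreducible K G hG V hV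

theorem mem_insert_N0_iff {q : ℕ} (hq : q.Prime) (hqp : q ≠ p) :
    q ∈ insert p C.N0 ↔ ¬ C.ρbar.IsUnramifiedAt q := by
  rw [Finset.mem_insert, Curve.mem_ramifiedPrimes (k := ResidueField O) C.delta_ne]
  exact ⟨fun h => (h.resolve_left hqp).2.2, fun h => Or.inr ⟨hq, hqp, h⟩⟩

omit [CharP (ResidueField O) p] in
theorem prime_of_mem_badSet {q : ℕ} (hq : q ∈ C.badSet) : q.Prime := by
  rcases Finset.mem_insert.1 hq with rfl | hq
  · exact Fact.out
  rcases Finset.mem_insert.1 hq with rfl | hq
  · exact C.a_prime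
  · exact Nat.prime_of_mem_primeFactors hq

omit [CharP (ResidueField O) p] in
theorem insert_N0_subset_badSet : insert p C.N0 ⊆ C.badSet := fun q hq => by
  rcases Finset.mem_insert.1 hq with rfl | hq
  · exact Finset.mem_insert_self _ _
  · classical
    simp only [Curve.ramifiedPrimes, Finset.mem_filter] at hq
    exact Finset.mem_insert_of_mem (Finset.mem_insert_of_mem hq.1)

omit [CharP (ResidueField O) p] in
/-- Away from `p` the condition at `p` is the one of the minimal level. -/
theorem cond_eq_of_notMem (b : Bool) {T : Finset ℕ} (hp : p ∉ T) :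
    C.cond b T = liftCondition O p (C.kind b ∅) C.N0 T C.sgn := by
  cases b <;> simp [Ctx.cond, Ctx.kind, hp]

/-! ### Taylor–Wiles primes -/

variable [IsAdicComplete (maximalIdeal O) O] [Finite (ResidueField O)]

/-- **Taylor–Wiles primes of a context**, avoiding `C.badSet` and a further set `S`. -/
theorem exists_twPrimes (b : Bool) (S : Finset ℕ) :
    ∃ r : ℕ, ∀ n : ℕ, ∃ qv : Fin r → ℕ, Function.Injective qv ∧
      (∀ i, (qv i).Prime ∧ qv i ∉ C.badSet ∧ qv i ∉ S ∧ p ^ (n + 1) ∣ qv i - 1 ∧ p ∣ qv i - 1 ∧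
        qv i ∉ insert p C.N0) ∧
      C.Admissible b (Finset.univ.image qv) ∧ p ∉ Finset.univ.image qv ∧
      (∀ i, ∀ P : ValuationSubring (AlgebraicClosure ℚ), P.LiesOverPrime (qv i) →
        ∀ φ : Gal, P.IsFrobeniusAt φ (qv i) →
          ∃ α β : ResidueField O, α ≠ β ∧
            LinearMap.charpoly (C.ρbar.ρ φ) = (X - .C α) * (X - .C β)) ∧
      ∀ DQ : GaloisRep.DeformationRingData O C.ρbar (C.cond b (Finset.univ.image qv)),
        ∃ γ : MvPowerSeries (Fin r) O →ₐ[O] DQ.R, Function.Surjective γ := by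
  classical
  have hp : p.Prime := Fact.out
  have h56 := Results.S56.result p C.p_ne_two C.p_mem C.ρbar C.isAbsolutelyIrreducible_ρbar
    C.detIsCyclotomic_ρbar C.exists_split_ρbar C.indexTwo_ρbar
    (C.badSet ∪ S.filter Nat.Prime) (insert p C.N0) (Finset.mem_insert_self _ _)
    (C.insert_N0_subset_badSet.trans Finset.subset_union_left)
    (fun q hq => (Finset.mem_union.1 hq).elim C.prime_of_mem_badSet
      fun h => (Finset.mem_filter.1 h).2)
    fun q hq hqp => C.mem_insert_N0_iff hq hqp
  have main : ∀ {r n : ℕ} {qv : Fin r → ℕ}, Function.Injective qv →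
      (∀ i, (qv i).Prime ∧ qv i ∉ C.badSet ∪ S.filter Nat.Prime ∧ p ^ (n + 1) ∣ qv i - 1) →
      (∀ i, (qv i).Prime ∧ qv i ∉ C.badSet ∧ qv i ∉ S ∧ p ^ (n + 1) ∣ qv i - 1 ∧ p ∣ qv i - 1 ∧
        qv i ∉ insert p C.N0) ∧
      C.Admissible b (Finset.univ.image qv) ∧ p ∉ Finset.univ.image qv ∧
      ∀ q ∈ Finset.univ.image qv, q.Prime → q % p = 1 := by
    intro r n qv _ hq
    have hb : ∀ i, qv i ∉ C.badSet := fun i h => (hq i).2.1 (Finset.mem_union_left _ h)
    have hdvd : ∀ i, p ∣ qv i - 1 := fun i =>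
      (dvd_pow_self p n.succ_ne_zero).trans (hq i).2.2
    have hpQ : p ∉ Finset.univ.image qv := fun h => by
      obtain ⟨i, -, hi⟩ := Finset.mem_image.1 h
      exact hb i (Finset.mem_insert.2 (Or.inl hi))
    refine ⟨fun i => ⟨(hq i).1, hb i, fun h => (hq i).2.1
      (Finset.mem_union_right _ (Finset.mem_filter.2 ⟨h, (hq i).1⟩)), (hq i).2.2, hdvd i,
      fun h => hb i (C.insert_N0_subset_badSet h)⟩, ⟨?_, ?_, fun _ => hpQ⟩, hpQ, ?_⟩ <;>
      intro q hmem <;> obtain ⟨i, -, rfl⟩ := Finset.mem_image.1 hmem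
    · exact (hq i).1
    · intro h
      rcases Finset.mem_insert.1 h with h | h
      · exact hb i (Finset.mem_insert_of_mem (Finset.mem_insert.2 (Or.inl h)))
      · exact hb i (C.insert_N0_subset_badSet (Finset.mem_insert_of_mem h))
    · intro _
      obtain ⟨c, hc⟩ := hdvd i
      rw [show qv i = p * c + 1 by have := (hq i).1.one_lt; omega, Nat.mul_add_mod,
        Nat.one_mod_eq_one.mpr hp.ne_one]
  cases b
  · obtain ⟨r, hr⟩ := h56.2
    refine ⟨r, fun n => ?_⟩
    obtain ⟨qv, hinj, hq, hfrob, hγ⟩ := hr n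
    obtain ⟨h1, h2, h3, hmod⟩ := main hinj hq
    refine ⟨qv, hinj, h1, h2, h3, hfrob, ?_⟩
    have hC : C.cond false (Finset.univ.image qv) = fun (A : Type) (_ : CommRing A) (_ : IsLocalRing A) (_ : Algebra O A)
        (ρ : GaloisRepAdic A) =>
        GaloisRep.flatCondition O p (insert p C.N0 ∪ Finset.univ.image qv) ρ ∧
          ∀ q ∈ insert p C.N0, q.Prime → q ≠ p → ρ.IsUnipotentOnInertiaAt q := by
      rw [C.cond_eq_of_notMem false h3]
      funext A _ _ _ ρ
      exact propext (liftCondition_flat_iff hmod)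
    rw [hC]
    exact hγ
  · obtain ⟨r, hr⟩ := h56.1
    refine ⟨r, fun n => ?_⟩
    obtain ⟨qv, hinj, hq, hfrob, hγ⟩ := hr n
    obtain ⟨h1, h2, h3, hmod⟩ := main hinj hq
    refine ⟨qv, hinj, h1, h2, h3, hfrob, ?_⟩
    have hC : C.cond true (Finset.univ.image qv) = fun (A : Type) (_ : CommRing A) (_ : IsLocalRing A) (_ : Algebra O A)
        (ρ : GaloisRepAdic A) =>
        GaloisRep.strictOrdinaryCondition O p (insert p C.N0 ∪ Finset.univ.image qv) ρ ∧
          ∀ q ∈ insert p C.N0, q.Prime → q ≠ p → ρ.IsUnipotentOnInertiaAt q := by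
      rw [C.cond_eq_of_notMem true h3]
      funext A _ _ _ ρ
      exact propext (liftCondition_strict_iff hmod)
    rw [hC]
    exact hγ

/-! ### Deformation rings -/

omit [IsAdicComplete (maximalIdeal O) O] [Finite (ResidueField O)] in
/-- The residual representation is of the type of the level of `T`, given flatness at `p` where the
type asks for it. -/
theorem cond_ρbar {b : Bool} {T : Finset ℕ} (hbad : b = true → (p : ℤ) ∣ C.W.Δ)
    (hT : p ∈ T → (p : ℤ) ∣ C.W.Δ)
    (hflat : b = false → p ∉ T → (GaloisRepAdic.ofResidualGaloisRep C.ρbar).IsFlatAt p) :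
    C.cond b T (GaloisRepAdic.ofResidualGaloisRep C.ρbar) := by
  have hsord := fun h => Curve.isStrictOrdinaryAt_residual (p := p) (k := ResidueField O) C.delta_ne
    C.semistable C.p_ne_two h
  have hunr : ∀ q : ℕ, q.Prime → q ≠ p → q ∉ C.N0 → C.ρbar.IsUnramifiedAt q := fun q hq hqp hqN =>
    by_contra fun h =>
      (Finset.mem_insert.1 ((C.mem_insert_N0_iff hq hqp).2 h)).elim hqp hqN
  refine ⟨C.detIsCyclotomic_ρbar, ?_, fun q hq hqS P hP σ hσ => ?_,
    fun q _ hq hqp => Curve.isUnipotentOnInertiaAt_residual C.delta_ne C.semistable hq hqp,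
    fun q _ hq hqp _ => ⟨Curve.isUnipotentOnInertiaAt_residual C.delta_ne C.semistable hq hqp, ?_⟩⟩
  · cases b
    · by_cases hpT : p ∈ T
      · simp only [Ctx.kind, hpT, if_true]
        exact (hsord (hT hpT)).isOrdinaryAt
      · simp only [Ctx.kind, hpT, if_false]
        exact hflat rfl hpT
    · exact hsord (hbad rfl)
  · simp only [Finset.mem_insert, Finset.mem_union, not_or] at hqS
    exact hunr q hq hqS.1 hqS.2.1 P hP σ hσ
  · intro P hP F hF τ hτ
    rw [C.sgn_of_ne hqp]
    by_cases hqΔ : (q : ℤ) ∣ C.W.Δ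
    · have h := (Curve.signRelations_residual (k := ResidueField O) C.delta_ne C.semistable hq hqp hqΔ P hP F hF).2 τ hτ
      exact ⟨h.1, h.2.1⟩
    · have h1 : C.ρbar.ρ τ = 1 := hunr q hq hqp
        (fun h => hqΔ (Curve.dvd_Δ_of_mem_ramifiedPrimes (p := p) C.delta_ne h)) P hP τ hτ
      have h1' : (GaloisRepAdic.ofResidualGaloisRep C.ρbar).ρ τ = 1 := h1
      rw [h1', sub_self, mul_zero, zero_mul]
      exact ⟨rfl, rfl⟩

/-- The deformation ring of the level of `T`. -/
theorem exists_deformationRing {b : Bool} {T : Finset ℕ} (hbad : b = true → (p : ℤ) ∣ C.W.Δ)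
    (hT : p ∈ T → (p : ℤ) ∣ C.W.Δ)
    (hflat : b = false → p ∉ T → (GaloisRepAdic.ofResidualGaloisRep C.ρbar).IsFlatAt p) :
    Nonempty (GaloisRep.DeformationRingData O C.ρbar (C.cond b T)) :=
  nonempty_deformationRingData_lift C.p_ne_two C.p_mem C.isAbsolutelyIrreducible_ρbar
    (C.cond_ρbar hbad hT hflat)

/-- A representation of a type over a coefficient algebra shows that the residual representation
is of that type, so the deformation ring exists. -/
theorem exists_deformationRing_of_rep {b : Bool} {T : Finset ℕ} {A : Type} [CommRing A]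
    [IsLocalRing A] [IsNoetherianRing A] [IsAdicComplete (maximalIdeal A) A] [Algebra O A]
    (hA : IsResAlg O A) (ρ : GaloisRepAdic A)
    (hres : haveI := hA.isLocalHom
      ρ.residual.IsEquiv (C.ρbar.baseChangeAlong (ResidueField.map (algebraMap O A))))
    (hρ : C.cond b T ρ) :
    C.cond b T (GaloisRepAdic.ofResidualGaloisRep C.ρbar) ∧
      Nonempty (GaloisRep.DeformationRingData O C.ρbar (C.cond b T)) := by
  have hbar : C.cond b T (GaloisRepAdic.ofResidualGaloisRep C.ρbar) :=
    cond_residual_of_rep C.isAbsolutelyIrreducible_ρbar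
      (isDeformationCondition_lift C.p_ne_two C.p_mem (C.kind b T) C.N0 T C.sgn) hA ρ hres hρ
  exact ⟨hbar, nonempty_deformationRingData_lift C.p_ne_two C.p_mem
    C.isAbsolutelyIrreducible_ρbar hbar⟩

end Ctx

end Fermat.Agent.Lifting

end
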