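import Fermat.Agent.Lifting.TW.Level
import Fermat.Agent.Lifting.TW.Primes
import Fermat.Agent.Lifting.Assembly.Minimal
import Fermat.Agent.Lifting.Assembly.Raised
import Fermat.Agent.Lifting.Degeneracy.HeckeAtQ
import Fermat.Agent.Lifting.Galois.LevelSystem
import Fermat.Agent.RT.Lower.LevelsExist

/-!
# The minimal step for a context

The Taylor–Wiles levels of a context give the patching data, hence the minimal deformation ring
is the minimal Hecke algebra, the minimal module is free over it and it has a presentation.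
-/

set_option autoImplicit false
set_option linter.overlappingInstances false
set_option linter.style.haveILetI false

noncomputable section

namespace Fermat.Agent.Lifting

open IsLocalRing MvPolynomial
open Fermat.Agent.Arith (QBar)
open Fermat.Agent.RT.GammaH Fermat.Agent.Lifting.Degeneracy Fermat.Agent.Lifting.Assembly

/-- The residue of a trace of a lift. -/
theorem residue_trace_of_isEquiv {O A : Type} [CommRing O] [IsLocalRing O] [CommRing A]
    [IsLocalRing A] [Algebra O A] [IsLocalHom (algebraMap O A)]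
    {ρbar : ResidualGaloisRep (ResidueField O)} (ρ : GaloisRepAdic A)
    (h : ρ.residual.IsEquiv (ρbar.baseChangeAlong (ResidueField.map (algebraMap O A))))
    (σ : Deform.Gal) :
    residue A (ρ.trace σ) =
      ResidueField.map (algebraMap O A) (LinearMap.trace (ResidueField O) ρbar.V (ρbar.ρ σ)) := by
  obtain ⟨e⟩ := h
  letI := (ResidueField.map (algebraMap O A)).toAlgebra
  have hc : e.toLinearEquiv.conj (ρ.residual.ρ σ) =
      (ρbar.baseChangeAlong (ResidueField.map (algebraMap O A))).ρ σ := LinearMap.ext fun x => by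
    rw [LinearEquiv.conj_apply_apply, e.map_apply, LinearEquiv.apply_symm_apply]
  have h1 := congrArg (LinearMap.trace (ResidueField A) _) hc
  rw [LinearMap.trace_conj'] at h1
  exact ((LinearMap.trace_baseChange (ρ.ρ σ) (ResidueField A)).symm.trans h1).trans
    (LinearMap.trace_baseChange (ρbar.ρ σ) (ResidueField A))

namespace Ctx

variable {O : Type} [CommRing O] [IsDomain O] [IsDiscreteValuationRing O]
  {p : ℕ} [Fact p.Prime] [CharP (ResidueField O) p] (C : Ctx O p)

theorem trace_ρbar_frobenius {ℓ : ℕ} (hℓ : ℓ.Prime) (hℓS : ℓ ∉ C.badSet ∨ ℓ = C.a)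
    {A : ValuationSubring QBar} (hA : A.LiesOverPrime ℓ) {σ : Deform.Gal}
    (hσ : A.IsFrobeniusAt σ ℓ) :
    LinearMap.trace (ResidueField O) C.ρbar.V (C.ρbar.ρ σ) = C.abar ℓ := by
  have hgood : C.W.IsGoodPrimeFor ℓ ∧ ℓ ≠ p := by
    rcases hℓS with h | rfl
    · exact ⟨fun h' => h (C.mem_badSet hℓ (b := false) (Or.inr (Or.inr h'))),
        fun h' => h (C.mem_badSet hℓ (b := false) (Or.inl h'))⟩
    · exact ⟨C.a_good, C.a_ne⟩
  have hch := Curve.charpoly_residual_frobenius (k := ResidueField O) C.delta_ne hℓ hgood.1 hgood.2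
    hA hσ
  rw [EC.FrobTrace.charpoly_of_finrank_eq_two C.ρbar.finrank_eq] at hch
  have e1 := congrArg (fun F => Polynomial.coeff F 1) hch
  simp [Polynomial.coeff_X_pow] at e1
  exact e1

variable [IsAdicComplete (maximalIdeal O) O] [Finite (ResidueField O)] [CharZero O]

/-- `T_q` on the minimal level has the residue `abar q`. -/
theorem exists_heckeOp {b : Bool} (hB : C.Base b) {S S' : Finset ℕ}
    (hbad : C.badSet ⊆ S) (hSS : S ⊆ S') {L : ℕ} [NeZero L] (hL : L = C.baseLevel b)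
    [Nontrivial (wEigen S' C.abar (twistSub_top L 0) ∅ C.eps)] {q : ℕ}
    [Fact q.Prime] (hq : q.Prime) (hqS : q ∉ S) :
    ∃ t : OpRing O L S', opRes S' C.abar L t = C.abar q ∧
      ∀ x ∈ locSub O S' C.abar (⊤ : Subgroup (ZMod L)ˣ), heckeH O S' q x = t • x := by
  have hS' : ∀ v : ℕ, v.Prime → v ∣ L → v ∈ S' := fun v hv h =>
    hSS (hbad (C.mem_badSet hv (b := b) (Or.inr (Or.inl (hL ▸ h)))))
  set hK := twistSub_top L 0
  haveI := Assembly.isLocalRing_levelT hS' C.abar hK ∅ C.eps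
  have hA := Assembly.isResAlg_levelT hS' C.abar hK ∅ C.eps
  obtain ⟨ρ, hres, -, htr⟩ := C.exists_levelRep_minimal hB (hbad.trans hSS) hL hA
  haveI := hA.isLocalHom
  have hqL : ¬ q ∣ L := fun h => hqS (hbad (C.mem_badSet hq (b := b) (Or.inr (Or.inl (hL ▸ h)))))
  have hqb : q ∉ C.badSet := fun h => hqS (hbad h)
  have hqp : q ≠ p := fun h => hqb (by rw [h]; exact Finset.mem_insert_self _ _)
  obtain ⟨A, hA'⟩ := Arith.exists_liesOverPrime hq
  obtain ⟨F, hF⟩ := Arith.exists_isFrobeniusAt hA' hq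
  obtain ⟨ℓ₀, h0, h0S, -, -, h0ne⟩ := Curve.exists_abar_ne (k := ResidueField O) C.delta_ne
    C.p_ne_two C.irreducible S'
  obtain ⟨a, ha⟩ := toLevelT_surjective hK C.eps hS' (ρ.trace F)
  have hm : ((residue (levelT S' C.abar hK ∅ C.eps)).comp
        (toLevelT S' C.abar hK C.eps).toRingHom) =
      (ResidueField.map (algebraMap O (levelT S' C.abar hK ∅ C.eps))).comp
        (opRes S' C.abar L).toRingHom := by
    refine MvPolynomial.ringHom_ext (fun c => ?_) fun i => ?_
    · show residue _ (toLevelT S' C.abar hK C.eps (algebraMap O (OpRing O L S') c)) =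
        ResidueField.map _ (opRes S' C.abar L (algebraMap O (OpRing O L S') c))
      rw [AlgHom.commutes, AlgHom.commutes, ResidueField.algebraMap_eq, ResidueField.map_residue]
    · show residue _ (toLevelT S' C.abar hK C.eps (X i)) =
        ResidueField.map _ (opRes S' C.abar L (X i))
      rcases i with u | ⟨ℓ, hℓ, hℓS⟩
      · rw [opRes_inl, map_one]
        simp [toLevelT]
      · rw [opRes_inr, show toLevelT S' C.abar hK C.eps (X (Sum.inr ⟨ℓ, hℓ, hℓS⟩)) =
          levelOp S' C.abar hK ∅ C.eps ℓ by simp [toLevelT]]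
        obtain ⟨B, hB⟩ := Arith.exists_liesOverPrime hℓ
        obtain ⟨G, hG⟩ := Arith.exists_isFrobeniusAt hB hℓ
        rw [← htr ℓ hℓ hℓS B hB G hG, residue_trace_of_isEquiv ρ hres,
          C.trace_ρbar_frobenius hℓ (Or.inl fun h => hℓS (hSS (hbad h))) hB hG]
  refine ⟨a, (ResidueField.map (algebraMap O (levelT S' C.abar hK ∅ C.eps))).injective ?_,
    fun x hx => ?_⟩
  · refine (RingHom.congr_fun hm a).symm.trans ?_
    show residue _ (toLevelT S' C.abar hK C.eps a) = _
    rw [ha, residue_trace_of_isEquiv ρ hres, C.trace_ρbar_frobenius hq (Or.inl hqb) hA' hF]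
  · have hx' : x ∈ wEigen S' C.abar hK ∅ C.eps := by rwa [wEigen_empty]
    have h1 := heckeH_eq_trace hK C.eps hS' C.p_mem (hL ▸ C.squarefree_baseLevel b)
      ⟨ℓ₀, h0, h0S, h0ne⟩ ρ htr hqL hqp hA' hF ⟨x, hx'⟩
    rw [← ha, toLevelT_apply hK C.eps hS'] at h1
    exact h1

set_option maxHeartbeats 1600000 in
/-- **The minimal step of a context**: `R = T`, freeness and a presentation at the minimal
level. -/
theorem exists_minimal_levelT (hE : RT.Lower.TraceInertiaAll) {b : Bool} (hB : C.Base b)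
    {S : Finset ℕ} (hbad : C.badSet ⊆ S) {L : ℕ} [NeZero L] (hL : L = C.baseLevel b)
    (hnt : ∀ S' : Finset ℕ, S ⊆ S' → Nontrivial (wEigen S' C.abar (twistSub_top L 0) ∅ C.eps))
    {e : ℕ} {hK : TwistSub L (⊤ : Subgroup (ZMod L)ˣ) e} {eps : ℕ → O}
    [Nontrivial (wEigen S C.abar hK ∅ eps)] [IsLocalRing (levelT S C.abar hK ∅ eps)]
    [IsReduced (levelT S C.abar hK ∅ eps)]
    (hA : Fermat.Agent.Deform.IsResAlg O (levelT S C.abar hK ∅ eps))
    (ρ : GaloisRepAdic (levelT S C.abar hK ∅ eps))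
    (hρ : IsLevelRep hA C.ρbar (C.cond b ∅) ρ)
    (DR : GaloisRep.DeformationRingData O C.ρbar (C.cond b ∅))
    (φ : DR.R →ₐ[O] levelT S C.abar hK ∅ eps) (hφ : Function.Surjective φ)
    (hφtr : ∀ σ, φ (DR.ρ.trace σ) = ρ.trace σ) :
    Function.Bijective φ ∧
      _root_.Module.Free (levelT S C.abar hK ∅ eps) (wEigen S C.abar hK ∅ eps) ∧
      ∃ (r : ℕ) (γ : MvPowerSeries (Fin r) O →ₐ[O] levelT S C.abar hK ∅ eps)
        (f : Fin r → MvPowerSeries (Fin r) O),
        Function.Surjective γ ∧ RingHom.ker γ = Ideal.span (Set.range f) ∧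
        ∀ ϖ : O, Irreducible ϖ → RingTheory.Sequence.IsWeaklyRegular
          (MvPowerSeries (Fin r) O) (List.ofFn f ++ [MvPowerSeries.C ϖ]) := by
  classical
  have hp : p.Prime := Fact.out
  have hS : ∀ v : ℕ, v.Prime → v ∣ L → v ∈ S := fun v hv h =>
    hbad (C.mem_badSet hv (b := b) (Or.inr (Or.inl (hL ▸ h))))
  have hpS : p ∈ S := hbad (Finset.mem_insert_self _ _)
  have hbar : RT.Glue.HasCharpolys (O := O) S C.abar C.ρbar :=
    Curve.hasCharpolys_residual C.delta_ne hpS
      fun r hr hd => hbad (C.mem_badSet hr (b := b) (Or.inr (Or.inr hd)))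
  let H₀ : HeckeSystem O C.ρbar (C.cond b ∅) S := levelSystem hS hA ρ hρ
  let e₀ : H₀.M ≃ₗ[O] locSub O S C.abar (⊤ : Subgroup (ZMod L)ˣ) :=
    LinearEquiv.ofEq _ _ (wEigen_empty S C.abar hK eps)
  have he₀ : ∀ (ℓ : {ℓ : ℕ // ℓ.Prime ∧ ℓ ∉ S}) (x : H₀.M),
      (e₀ (H₀.op ℓ.1 • x) : HomMod O S (⊤ : Subgroup (ZMod L)ˣ) O) =
        (X (Sum.inr ℓ) : OpRing O L S) • (e₀ x : HomMod O S (⊤ : Subgroup (ZMod L)ˣ) O) :=
    fun ℓ x => by
      refine (coe_levelOp_smul hS ℓ.2.1 ℓ.2.2 x).trans ?_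
      rw [twEl, mul_smul, X_inl_smul]
      exact diamond_top O _ _
  let φ' : DR.R →ₐ[O] H₀.T := φ
  letI : _root_.Module DR.R H₀.M := _root_.Module.compHom H₀.M φ'.toRingHom
  haveI : IsScalarTower O DR.R H₀.M := ⟨fun c a v => by
    show φ' (c • a) • v = c • φ' a • v
    rw [map_smul, smul_assoc]⟩
  obtain ⟨r, hTW⟩ := C.exists_twPrimes b S
  have hD : ∀ n, Nonempty (TWDatum O p r (2 ^ r * _root_.Module.finrank O H₀.M) n DR.R
      (Fin (2 ^ r) → H₀.M)) := fun n => by
    obtain ⟨qv, hinj, hqv, hadm, hpQ, hfrob, hγ⟩ := hTW n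
    haveI : ∀ i, Fact (qv i).Prime := fun i => ⟨(hqv i).1⟩
    set Q := Finset.univ.image qv with hQdef
    set S' := S ∪ Q with hS'def
    haveI : NeZero (C.level b Q) := ⟨(Ctx.squarefree_level hadm).ne_zero⟩
    have hmod : ∀ q ∈ Q, q % p = 1 := fun q hq => by
      obtain ⟨i, -, rfl⟩ := Finset.mem_image.1 hq
      obtain ⟨c, hc⟩ := (hqv i).2.2.2.2.1
      rw [show qv i = p * c + 1 by have := (hqv i).1.one_lt; omega, Nat.mul_add_mod,
        Nat.one_mod_eq_one.mpr hp.ne_one]
    have hn : ∀ q ∈ Q, p ^ n ∣ q - 1 := fun q hq => by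
      obtain ⟨i, -, rfl⟩ := Finset.mem_image.1 hq
      exact (pow_dvd_pow p n.le_succ).trans (hqv i).2.2.2.1
    have hP := isWeight_twWeight p n Q hn
    have hbad' : C.badSet ⊆ S' := hbad.trans Finset.subset_union_left
    haveI hn₀ := hnt S' Finset.subset_union_left
    haveI : Nontrivial (locSub O S' C.abar (⊤ : Subgroup (ZMod L)ˣ)) := by
      rwa [wEigen_empty] at hn₀
    have hs := C.moduleSetup hadm hP hbad' Finset.subset_union_right (N := C.level b Q) rfl
    have hsys := C.exists_levelSystem_tw hB hadm hpQ hn hmod hbad' Finset.subset_union_right hL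
      (N := C.level b Q) (by rw [hL]; rfl)
    obtain ⟨DQ⟩ : Nonempty (GaloisRep.DeformationRingData O C.ρbar (C.cond b Q)) := by
      obtain ⟨H₁, -⟩ := hsys _ rfl
      haveI := H₁.isNoetherianRing
      haveI := H₁.isAdicComplete
      exact (C.exists_deformationRing_of_rep H₁.isResAlg H₁.ρ H₁.residual_isEquiv
        (show C.cond b Q H₁.ρ by rw [C.cond_eq_of_notMem b hpQ]; exact H₁.cond)).2
    obtain ⟨γ, hγ'⟩ := hγ DQ
    have hC := C.cond_eq_of_notMem b hpQ
    revert DQ
    rw [hC]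
    intro DQ γ hγ'
    obtain ⟨ℓ₀, h0, h0S, -, -, h0ne⟩ := Curve.exists_abar_ne (k := ResidueField O) C.delta_ne
      C.p_ne_two C.irreducible S'
    refine TW.exists_twDatum_level C.p_ne_two C.p_mem (hL ▸ C.squarefree_baseLevel b) hS hpS hbar
      DR H₀ φ' hφtr (fun _ _ => rfl) e₀ he₀ hinj (fun i => (hqv i).2.2.1)
      (fun i => (hqv i).2.2.2.2.2) (fun i => (hqv i).2.2.2.1) hfrob (fun i => ?_) DQ γ hγ'
      (N := C.level b Q) (by rw [hL]; rfl) (hL ▸ dvd_mul_right _ _) (S := S') rfl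
      ⟨ℓ₀, h0, h0S, h0ne⟩ (C.freeLevel_level b Q)
      hs.drop
      (fun i => C.exists_heckeOp hB hbad Finset.subset_union_left hL (hqv i).1 (hqv i).2.2.1)
      hsys (fun M _ => GaloisReps.heckeGaloisModel M p)
      (fun M _ v hv hvp hvM hsq => ⟨Semistable.unipotentAt_model M p hv hvp hvM hsq,
        Semistable.toricSquareAt_model M p hv hvp hsq⟩)
      (fun M _ => GaloisReps.congruenceProperty M p) fun v R M _ _ _ g => hE p v R M g
    refine Curve.isUnramifiedAt_residual C.delta_ne (hqv i).1 (fun h => (hqv i).2.1 ?_)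
      fun h => (hqv i).2.1 (by rw [h]; exact Finset.mem_insert_self _ _)
    exact C.mem_badSet (hqv i).1 (b := b) (Or.inr (Or.inr h))
  obtain ⟨h1, h2, γ, f, h3⟩ := Assembly.exists_minimal C.p_mem C.p_ne_two H₀ DR φ' hφ
    (fun _ _ => rfl) (Nat.two_pow_pos r) fun n => (hD n).some
  exact ⟨h1, h2, r, γ, f, h3⟩

end Ctx

end Fermat.Agent.Lifting

end
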