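import Fermat.Agent.Lifting.Setup.Weights
import Fermat.Agent.RT.Assembly.LevelChar

/-!
# The character of a Taylor–Wiles level

For primes `q i ≡ 1 (mod p ^ n)` dividing `N` a character `ψ` of `(ℤ/N)ˣ` onto `(ℤ/p ^ n)ʳ` with kernel
`diaSub` of the weight `p ^ n` on the `q i`, with the `halfInvExp`-powers at the chosen generators
the standard ones.
-/

set_option autoImplicit false

noncomputable section

namespace Fermat.Agent.Lifting.TW

open Fermat.Agent.RT (halfInvExp)

/-- The group of a Taylor–Wiles level. -/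
abbrev TWGroup (p r n : ℕ) : Type := Multiplicative (Fin r → ZMod (p ^ n))

/-- The standard generators. -/
def twGen (p : ℕ) {r : ℕ} (n : ℕ) (i : Fin r) : TWGroup p r n :=
  Multiplicative.ofAdd (Pi.single i 1)

theorem card_twGroup (p r n : ℕ) [NeZero p] : Nat.card (TWGroup p r n) = p ^ (n * r) := by
  rw [Nat.card_congr Multiplicative.toAdd, Nat.card_fun, Nat.card_zmod,
    Nat.card_eq_fintype_card, Fintype.card_fin, ← pow_mul]

theorem isPGroup_twGroup (p r n : ℕ) [NeZero p] : IsPGroup p (TWGroup p r n) :=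
  IsPGroup.of_card (card_twGroup p r n)

theorem twGen_pow (p : ℕ) {r : ℕ} (n : ℕ) (i : Fin r) : twGen p n i ^ p ^ n = 1 := by
  apply Multiplicative.toAdd.injective
  rw [twGen, toAdd_pow, toAdd_ofAdd, toAdd_one]
  funext j
  rw [Pi.smul_apply, nsmul_eq_mul, ZMod.natCast_self, zero_mul]
  rfl

/-- Every element of the group is a product of powers of the generators. -/
theorem prod_twGen_pow (p : ℕ) {r : ℕ} (n : ℕ) [NeZero p] (δ : TWGroup p r n) :
    ∏ i, twGen p n i ^ (δ.toAdd i).val = δ := by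
  apply Multiplicative.toAdd.injective
  rw [toAdd_prod]
  refine funext fun j => ?_
  simp only [twGen, toAdd_pow, toAdd_ofAdd, Finset.sum_apply, Pi.smul_apply, Pi.single_apply,
    smul_ite, smul_zero, nsmul_one, Finset.sum_ite_eq, Finset.mem_univ, if_true,
    ZMod.natCast_zmod_val]

theorem val_finEquiv {m : ℕ} [h : NeZero m] (x : Fin m) : (ZMod.finEquiv m x).val = (x : ℕ) := by
  cases m with
  | zero => exact absurd rfl h.out
  | succ m => rfl

/-- The group as exponent vectors. -/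
def twEquiv (p r n : ℕ) [NeZero p] : (Fin r → Fin (p ^ n)) ≃ TWGroup p r n :=
  ((Equiv.refl (Fin r)).arrowCongr (ZMod.finEquiv (p ^ n)).toEquiv).trans Multiplicative.ofAdd

theorem twEquiv_eq_prod (p : ℕ) {r : ℕ} (n : ℕ) [NeZero p] (v : Fin r → Fin (p ^ n)) :
    twEquiv p r n v = ∏ i, twGen p n i ^ (v i : ℕ) := by
  refine (prod_twGen_pow p n _).symm.trans (Finset.prod_congr rfl fun i _ => ?_)
  congr 1
  exact val_finEquiv (v i)

/-- Units of a prime `q` with trivial value under a character onto `ℤ/p ^ n` normalised at a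
generator are those killed by `(q - 1) / p ^ n`. -/
theorem eq_one_iff_pow_eq_one {q m : ℕ} [Fact q.Prime] [NeZero m] (hm : m ∣ q - 1)
    {a : (ZMod q)ˣ} (ha : orderOf a = q - 1) (f : (ZMod q)ˣ →* Multiplicative (ZMod m))
    {h : ℕ} (hf : f a ^ h = Multiplicative.ofAdd 1) (z : (ZMod q)ˣ) :
    f z = 1 ↔ z ^ ((q - 1) / m) = 1 := by
  have htop : Subgroup.zpowers a = ⊤ := Subgroup.eq_top_of_card_eq _ (by
    rw [Nat.card_zpowers, ha, Nat.card_eq_fintype_card, ZMod.card_units])
  obtain ⟨k, rfl⟩ : ∃ k : ℕ, a ^ k = z := by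
    obtain ⟨k, hk⟩ := Subgroup.mem_zpowers_iff.1 (htop.symm ▸ Subgroup.mem_top z : z ∈ Subgroup.zpowers a)
    refine ⟨(k % (orderOf a : ℤ)).toNat, ?_⟩
    rw [← zpow_natCast, Int.toNat_of_nonneg (Int.emod_nonneg _ (by
      have := orderOf_pos a
      omega)), zpow_mod_orderOf, hk]
  have hcop : h.Coprime m := by
    have h1 := congrArg Multiplicative.toAdd hf
    rw [toAdd_pow, nsmul_eq_mul, toAdd_ofAdd] at h1
    exact (ZMod.isUnit_iff_coprime h m).1 (IsUnit.of_mul_eq_one _ h1)
  rw [map_pow, ← pow_mul, ← orderOf_dvd_iff_pow_eq_one, ← orderOf_dvd_iff_pow_eq_one, ha]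
  have hord : orderOf (f a) = m := by
    have h2 : orderOf (f a ^ h) = m := by rw [hf, orderOf_ofAdd_eq_addOrderOf, ZMod.addOrderOf_one]
    have h3 := orderOf_pow_dvd (x := f a) h
    rw [h2] at h3
    refine Nat.dvd_antisymm (orderOf_dvd_of_pow_eq_one ?_) h3
    apply Multiplicative.toAdd.injective
    simp
  obtain ⟨c, hc⟩ := hm
  rw [hord, hc, Nat.mul_div_cancel_left c (NeZero.pos m)]
  exact ⟨fun ⟨j, hj⟩ => ⟨j, by rw [hj]; ring⟩,
    fun hd => (Nat.mul_dvd_mul_iff_right (c := c) (Nat.pos_of_ne_zero fun h0 => by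
      rw [h0, mul_zero] at hc
      have := (Fact.out : q.Prime).two_le
      omega)).1 hd⟩

variable {p r n : ℕ} [hp : Fact p.Prime]

/-- `-2` inverts `halfInvExp` modulo `p ^ n` when there is a place. -/
theorem halfInvExp_mul_neg_two (hp2 : p ≠ 2) (i : Fin r) :
    (halfInvExp (TWGroup p r n) : ZMod (p ^ n)) * (-2) = 1 := by
  obtain ⟨k, hk⟩ : Odd (p ^ (n * r)) := (hp.out.odd_of_ne_two hp2).pow
  have h0 : ((p ^ (n * r) : ℕ) : ZMod (p ^ n)) = 0 :=
    (ZMod.natCast_eq_zero_iff _ _).2 (pow_dvd_pow p (Nat.le_mul_of_pos_right n (i.pos)))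
  rw [halfInvExp, card_twGroup, hk, show (2 * k + 1 - 1) / 2 = k by omega]
  rw [hk] at h0
  push_cast at h0
  linear_combination -h0

/-- **The character.** -/
theorem exists_twPsi (hp2 : p ≠ 2) {qv : Fin r → ℕ} [hq : ∀ i, Fact (qv i).Prime]
    (hinj : Function.Injective qv) {N : ℕ} (hdvd : ∀ i, qv i ∣ N) (hsq : Squarefree N)
    (hQ : ∀ i, p ^ n ∣ qv i - 1) (a : ∀ i, (ZMod (qv i))ˣ) (ha : ∀ i, orderOf (a i) = qv i - 1) :
    ∃ ψ : (ZMod N)ˣ →* TWGroup p r n, Function.Surjective ψ ∧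
      ψ.ker = diaSub (twWeight p n (Finset.univ.image qv)) N ∧
      ∀ i, ∃ u : (ZMod N)ˣ, ((u : ZMod N).cast : ZMod (N / qv i)) = 1 ∧
        ZMod.unitsMap (hdvd i) u = a i ∧
        ψ u ^ halfInvExp (TWGroup p r n) = twGen p n i := by
  classical
  have : NeZero (p ^ n) := ⟨pow_ne_zero n hp.out.ne_zero⟩
  have hf : ∀ i, ∃ f : (ZMod (qv i))ˣ →* Multiplicative (ZMod (p ^ n)),
      f (a i) = Multiplicative.ofAdd (-2 : ZMod (p ^ n)) :=
    fun i => RT.Assembly.exists_logHom (hQ i) (ha i) _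
  choose f hf using hf
  let ψ : (ZMod N)ˣ →* TWGroup p r n :=
    { toFun := fun u => Multiplicative.ofAdd fun i => (f i (ZMod.unitsMap (hdvd i) u)).toAdd
      map_one' := by
        apply Multiplicative.toAdd.injective
        funext i
        simp
      map_mul' := fun u v => by
        apply Multiplicative.toAdd.injective
        funext i
        simp }
  have hu : ∀ i, ∃ u : (ZMod N)ˣ, ((u : ZMod N).cast : ZMod (N / qv i)) = 1 ∧
      ZMod.unitsMap (hdvd i) u = a i := fun i =>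
    RT.Assembly.exists_unit_crt (hdvd i) ((hq i).out.coprime_iff_not_dvd.mpr fun hd =>
      (hq i).out.not_isUnit (hsq _ ((Nat.dvd_div_iff_mul_dvd (hdvd i)).1 hd))) (a i)
  choose u hu1 hu2 using hu
  have hgen : ∀ i, ψ (u i) ^ halfInvExp (TWGroup p r n) = twGen p n i := by
    intro i
    apply Multiplicative.toAdd.injective
    rw [toAdd_pow]
    funext j
    show halfInvExp (TWGroup p r n) • (f j (ZMod.unitsMap (hdvd j) (u i))).toAdd =
      (Pi.single i 1 : Fin r → ZMod (p ^ n)) j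
    rcases eq_or_ne j i with rfl | hji
    · rw [hu2, hf, toAdd_ofAdd, Pi.single_eq_same, nsmul_eq_mul, halfInvExp_mul_neg_two hp2 j]
    · have hd : qv j ∣ N / qv i := Nat.dvd_div_of_mul_dvd (((Nat.coprime_primes (hq i).out
        (hq j).out).mpr fun e => hji (hinj e).symm).mul_dvd_of_dvd_of_dvd (hdvd i) (hdvd j))
      have h1 : ZMod.unitsMap (Nat.div_dvd_of_dvd (hdvd i)) (u i) = 1 := Units.ext (by
        rw [ZMod.unitsMap_val]; exact hu1 i)
      rw [← ZMod.unitsMap_comp hd (Nat.div_dvd_of_dvd (hdvd i)), MonoidHom.comp_apply, h1, map_one,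
        map_one, toAdd_one, smul_zero, Pi.single_eq_of_ne hji]
  refine ⟨ψ, fun δ => ⟨∏ i, (u i ^ halfInvExp (TWGroup p r n)) ^ (δ.toAdd i).val, ?_⟩, ?_,
    fun i => ⟨u i, hu1 i, hu2 i, hgen i⟩⟩
  · rw [map_prod]
    refine Eq.trans (Finset.prod_congr rfl fun i _ => ?_) (prod_twGen_pow p n δ)
    rw [map_pow, map_pow, hgen]
  · ext z
    rw [MonoidHom.mem_ker, mem_diaSub]
    have hiff : ∀ i, f i (ZMod.unitsMap (hdvd i) z) = 1 ↔
        ZMod.unitsMap (hdvd i) z ^ ((qv i - 1) / p ^ n) = 1 := fun i =>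
      eq_one_iff_pow_eq_one (h := halfInvExp (TWGroup p r n)) (hQ i) (ha i) (f i) (by
        apply Multiplicative.toAdd.injective
        rw [toAdd_pow, hf, toAdd_ofAdd, toAdd_ofAdd, nsmul_eq_mul, halfInvExp_mul_neg_two hp2 i]) _
    constructor
    · intro hz q hqN hqp
      have : Fact q.Prime := ⟨hqp⟩
      unfold twWeight
      split_ifs with hmem
      · obtain ⟨i, -, rfl⟩ := Finset.mem_image.mp hmem
        refine (hiff i).1 ?_
        apply Multiplicative.toAdd.injective
        exact congrFun (congrArg Multiplicative.toAdd hz) i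
      · rw [Nat.div_one, ZMod.units_pow_card_sub_one_eq_one]
    · intro hz
      apply Multiplicative.toAdd.injective
      funext i
      show (f i _).toAdd = 0
      have := hz (qv i) (hdvd i) (hq i).out
      rw [twWeight, if_pos (Finset.mem_image_of_mem qv (Finset.mem_univ i))] at this
      rw [(hiff i).2 this, toAdd_one]

end Fermat.Agent.Lifting.TW

end
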