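import Fermat.Agent.RT.Glue.Bridge
import Fermat.Agent.Lifting.Galois.Carayol
import Fermat.Agent.Lifting.Deform.Universal

/-!
# Traces of inertia of a representation over the twisted operators of a Hecke module

A representation over an algebra mapping to that of a Hecke module with `⟨ℓ⟩ ^ h T_ℓ` as Frobenius
traces has the traces of inertia of the glued one.
-/

set_option autoImplicit false
set_option linter.style.haveILetI false

noncomputable section

namespace Fermat.Agent.Lifting.TW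

open IsLocalRing
open Fermat.Agent.RT (HeckeModule halfInvExp)
open Fermat.Agent.RT.Glue
open GaloisReps (AbsGal HeckeGaloisModel)
open NewformLocal (UnipotentAt)

variable {O : Type} [CommRing O] [IsDomain O] [IsDiscreteValuationRing O]
  [IsAdicComplete (maximalIdeal O) O] [Finite (ResidueField O)] [CharZero O]
  {p : ℕ} [Fact p.Prime]
  {L : ℕ} [NeZero L] {Δ : Type} [CommGroup Δ] [Finite Δ] {ψ : (ZMod L)ˣ →* Δ} {S : Finset ℕ}
  {abar : ℕ → ResidueField O}

set_option maxHeartbeats 800000 in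
/-- **Traces of inertia at a prime of the level.** -/
theorem trace_inertia_eq (hp : (p : O) ∈ maximalIdeal O) (hp2 : p ≠ 2) (hΔ : IsPGroup p Δ)
    (hL : Squarefree L) (hpS : p ∈ S) (hS : ∀ q : ℕ, q.Prime → q ∣ L → q ∈ S)
    {ρbar : ResidualGaloisRep (ResidueField O)} (habs : ρbar.IsAbsolutelyIrreducible)
    (hbar : HasCharpolys S abar ρbar) (D : ∀ (M : ℕ) [NeZero M], HeckeGaloisModel M p)
    (H : HeckeModule L ψ S abar) (hd : 0 < H.d) {T : Type} [CommRing T] [IsLocalRing T]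
    [Algebra O T] (f : T →ₐ[O] H.algebra)
    (op : ℕ → T)
    (hf : ∀ (ℓ : ℕ) (hℓ : ℓ.Prime) (hℓS : ℓ ∉ S), f (op ℓ) = sA H hS hℓ hℓS)
    (ρT : GaloisRepAdic T)
    (hρT : ∀ ℓ : ℕ, ℓ.Prime → ℓ ∉ S → ∀ P : ValuationSubring (AlgebraicClosure ℚ),
      P.LiesOverPrime ℓ → ∀ σ : AbsGal, P.IsFrobeniusAt σ ℓ → ρT.trace σ = op ℓ)
    {v : ℕ} [hvF : Fact v.Prime] (hvL : v ∣ L) (hvp : v ≠ p)
    (hE : ∀ (R M : ℕ) [NeZero R] [NeZero M] (g : CuspForm (CongruenceSubgroup.Gamma0 M) 2),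
      RT.InertiaTW.TraceInertia p v R M g)
    (hES : ∀ (M : ℕ) [NeZero M], GaloisReps.CongruenceProperty M p)
    (hU : ∀ (M : ℕ) [NeZero M], v ∣ M → ¬ v ^ 2 ∣ M → UnipotentAt (D M) v)
    (hbarv : ∀ A : ValuationSubring (AlgebraicClosure ℚ), A.LiesOverPrime v →
      ∀ σ ∈ A.inertiaSubgroupIn ℚ, LinearMap.trace (ResidueField O) ρbar.V (ρbar.ρ σ) = 2)
    {A : ValuationSubring (AlgebraicClosure ℚ)} (hA : A.LiesOverPrime v) {σ : AbsGal}
    (hσ : σ ∈ A.inertiaSubgroupIn ℚ) {a : ℕ}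
    (ha : ∀ μ : AlgebraicClosure ℚ, μ ^ v = 1 → σ μ = μ ^ a) (u : (ZMod L)ˣ)
    (hu : ((u : ZMod L).cast : ZMod (L / v)) = 1) (hua : ((u : ZMod L).cast : ZMod v) = a) :
    f (ρT.trace σ) =
      diaA H (ψ u ^ halfInvExp Δ) + diaA H (ψ u ^ halfInvExp Δ)⁻¹ := by
  haveI := isLocalRing_algebra (H := H) hp hΔ hd
  haveI := isLocalHom_algebraMap (H := H) hp hΔ
  haveI : Module.Finite O H.algebra := inferInstance
  haveI := isAdicComplete_algebra H
  have hR : Deform.IsResAlg O H.algebra :=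
    ⟨inferInstance, fun y => residue_algebraMap_surjective H hp hΔ y⟩
  obtain ⟨pt, G, hG, -, -, -⟩ := exists_rep (H := H) hp hΔ hp2 hpS hS habs hbar D
  let b := Module.finBasisOfFinrankEq T ρT.V ρT.finrank_eq
  have hfl : IsLocalHom (f : T →+* H.algebra) := Lifting.isLocalHom_algHom hR f
  have hmap : ∀ τ, (Deform.mapM (f : T →+* H.algebra) (Deform.matOf ρT b) τ).trace =
      f (ρT.trace τ) := fun τ => by
    rw [GaloisRepAdic.trace, LinearMap.trace_eq_matrix_trace T b]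
    exact (AddMonoidHom.map_trace f.toLinearMap.toAddMonoidHom _).symm
  have hfrob : ∀ ℓ : ℕ, ℓ.Prime → ℓ ∉ S → ∀ P : ValuationSubring (AlgebraicClosure ℚ),
      P.LiesOverPrime ℓ → ∀ τ : AbsGal, P.IsFrobeniusAt τ ℓ →
        (Deform.mapM (f : T →+* H.algebra) (Deform.matOf ρT b) τ).trace = (G.R τ).trace := by
    intro ℓ hℓ hℓS P hP τ hτ
    rw [hmap, hρT ℓ hℓ hℓS P hP τ hτ, hf ℓ hℓ hℓS]
    refine (sub_eq_zero.1 (eq_zero_of_forall_point fun θ => ?_)).symm
    have h := (pt θ).trace_frobenius_pow D hpS hℓ hℓS hP hτ 1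
    rw [pow_one] at h
    rw [map_sub, G.trace_eq, h]
    exact sub_self _
  rw [← hmap, trace_eq_of_frobenius hR ((Deform.isCont_matOf ρT b).map _ hfl) G.cont S hfrob σ]
  haveI : NeZero (v ^ 2 * (L / v) ^ 2) :=
    ⟨by rw [← mul_pow, Nat.mul_div_cancel' hvL]; exact pow_ne_zero 2 (NeZero.ne L)⟩
  have htw := G.twistedInertia hp hΔ hp2 hpS hL hvL hvp (fun R M _ _ g => hE R M g) (hES _)
    (fun M _ _ h1 h2 => hU M h1 h2) hG hbarv
  refine sub_eq_zero.1 (eq_zero_of_forall_point fun θ => ?_)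
  rw [map_sub, G.trace_eq, htw A hA σ hσ a ha u hu hua θ, map_add, sub_self]

end Fermat.Agent.Lifting.TW

end
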