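import Mathlib

/-!
# A semisimple element normalising a unipotent residual element

If `F X = X ^ n F` for two by two matrices over a local ring with `X ≡ 1` and `F` having roots
`a, b` of its characteristic polynomial with `a - n b` and `b - n a` units, then `X` is diagonal in
the eigenspaces of `F`.
-/

set_option autoImplicit false

namespace Fermat.Agent.Lifting.TW

variable {R : Type*} [CommRing R]

local notation "M₂" => Matrix (Fin 2) (Fin 2) R

/-- Sandwiching by a matrix of determinant zero. -/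
theorem mul_mul_self_of_det_eq_zero {E : M₂} (hd : E.det = 0) (A : M₂) :
    E * A * E = (E * A).trace • E := by
  rw [Matrix.det_fin_two] at hd
  refine Matrix.ext fun i j => ?_
  simp only [Matrix.mul_apply, Fin.sum_univ_two, Matrix.smul_apply, smul_eq_mul,
    Matrix.trace_fin_two]
  fin_cases i <;> fin_cases j
  · show (E 0 0 * A 0 0 + E 0 1 * A 1 0) * E 0 0 + (E 0 0 * A 0 1 + E 0 1 * A 1 1) * E 1 0 = _
    simp only [Fin.zero_eta]
    linear_combination -A 1 1 * hd
  · show (E 0 0 * A 0 0 + E 0 1 * A 1 0) * E 0 1 + (E 0 0 * A 0 1 + E 0 1 * A 1 1) * E 1 1 = _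
    simp only [Fin.zero_eta, Fin.mk_one]
    linear_combination A 0 1 * hd
  · show (E 1 0 * A 0 0 + E 1 1 * A 1 0) * E 0 0 + (E 1 0 * A 0 1 + E 1 1 * A 1 1) * E 1 0 = _
    simp only [Fin.zero_eta, Fin.mk_one]
    linear_combination A 1 0 * hd
  · show (E 1 0 * A 0 0 + E 1 1 * A 1 0) * E 0 1 + (E 1 0 * A 0 1 + E 1 1 * A 1 1) * E 1 1 = _
    simp only [Fin.mk_one]
    linear_combination -A 0 0 * hd

theorem det_smul_add_smul_one_sub {E : M₂} (hd : E.det = 0) (ht : E.trace = 1) (x y : R) :
    (x • E + y • (1 - E)).det = x * y := by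
  rw [Matrix.det_fin_two] at hd ⊢
  rw [Matrix.trace_fin_two] at ht
  simp only [Matrix.add_apply, Matrix.smul_apply, Matrix.sub_apply, smul_eq_mul,
    Matrix.one_apply_eq, Matrix.one_apply_ne (show (0 : Fin 2) ≠ 1 by decide),
    Matrix.one_apply_ne (show (1 : Fin 2) ≠ 0 by decide)]
  linear_combination (x - y) ^ 2 * hd + y * (x - y) * ht

theorem det_one_sub {E : M₂} (hd : E.det = 0) (ht : E.trace = 1) : (1 - E).det = 0 := by
  have h := det_smul_add_smul_one_sub hd ht 0 1
  simpa using h

/-- The Cayley–Hamilton identity. -/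
theorem sq_eq_trace_smul_sub (F : M₂) : F * F = F.trace • F - F.det • 1 := by
  refine Matrix.ext fun i j => ?_
  simp only [Matrix.mul_apply, Fin.sum_univ_two, Matrix.sub_apply, Matrix.smul_apply, smul_eq_mul,
    Matrix.trace_fin_two, Matrix.det_fin_two]
  fin_cases i <;> fin_cases j <;> simp <;> ring

/-- The idempotent of the root `a` of the characteristic polynomial of `F`. -/
theorem exists_idempotent {F : M₂} {a b : R} (hab : a + b = F.trace) (hprod : a * b = F.det)
    (hu : IsUnit (a - b)) :
    ∃ E : M₂, E.trace = 1 ∧ E.det = 0 ∧ E * E = E ∧ E * F = a • E ∧ F * E = a • E ∧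
      F * (1 - E) = b • (1 - E) ∧ (1 - E) * F = b • (1 - E) := by
  obtain ⟨u, hu⟩ := hu
  set c : R := ↑u⁻¹
  have hc : c * (a - b) = 1 := by rw [← hu, Units.inv_mul]
  set E : M₂ := c • (F - b • 1) with hE
  have hF : F = b • 1 + (a - b) • E := by
    rw [hE, smul_smul, mul_comm, hc, one_smul, add_sub_cancel]
  have ht : E.trace = 1 := by
    simp only [hE, Matrix.trace_smul, Matrix.trace_sub, Matrix.trace_one, Fintype.card_fin,
      smul_eq_mul]
    push_cast
    linear_combination hc - c * hab
  have hd : E.det = 0 := by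
    rw [hE, Matrix.det_smul]
    suffices h : (F - b • 1).det = 0 by rw [h, mul_zero]
    simp only [Matrix.det_fin_two, Matrix.trace_fin_two] at hab hprod ⊢
    simp only [Matrix.sub_apply, Matrix.smul_apply, smul_eq_mul, Matrix.one_apply_eq,
      Matrix.one_apply_ne (show (0 : Fin 2) ≠ 1 by decide),
      Matrix.one_apply_ne (show (1 : Fin 2) ≠ 0 by decide)]
    linear_combination b * hab - hprod
  have hEE : E * E = E := by
    rw [sq_eq_trace_smul_sub, ht, hd, one_smul, zero_smul, sub_zero]
  have h1 : E * F = a • E := by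
    rw [hF, mul_add, mul_smul_comm, mul_smul_comm, hEE, mul_one, ← add_smul, add_sub_cancel]
  have h2 : F * E = a • E := by
    rw [hF, add_mul, smul_mul_assoc, smul_mul_assoc, hEE, one_mul, ← add_smul, add_sub_cancel]
  have h3 : F - a • E = b • (1 - E) := by
    rw [hF, smul_sub, sub_smul]
    abel
  exact ⟨E, ht, hd, hEE, h1, h2, by rw [mul_sub, mul_one, h2, h3],
    by rw [sub_mul, one_mul, h1, h3]⟩

variable [IsLocalRing R]

open IsLocalRing

omit [IsLocalRing R] in
theorem map_quotient_eq_zero_iff {I : Ideal R} {A : M₂} :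
    (Ideal.Quotient.mk I).mapMatrix A = 0 ↔ ∀ i j, A i j ∈ I := by
  refine ⟨fun h i j => Ideal.Quotient.eq_zero_iff_mem.mp (congrFun (congrFun h i) j),
    fun h => Matrix.ext fun i j => Ideal.Quotient.eq_zero_iff_mem.mpr (h i j)⟩

/-- The two off-diagonal blocks vanish. -/
theorem offDiag_eq_zero [IsNoetherianRing R] {F X E E' : M₂} {a b : R} {n : ℕ}
    (hEE' : E + E' = 1) (hE : E * E = E) (hE' : E' * E' = E')
    (hEF : E * F = a • E) (hFE' : F * E' = b • E') (h : F * X = X ^ n * F)
    (hX : ∀ i j, (X - 1) i j ∈ maximalIdeal R) (hu : IsUnit (a - n * b)) :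
    E * X * E' = 0 := by
  set U := E * X * E' with hU
  let J : Ideal R := Ideal.span (Set.range fun x : Fin 2 × Fin 2 => U x.1 x.2)
  have hUJ : ∀ i j, U i j ∈ J := fun i j => Ideal.subset_span ⟨(i, j), rfl⟩
  have hE0 : E * E' = 0 := by
    rw [show E' = 1 - E from eq_sub_of_add_eq' hEE', mul_sub, mul_one, hE, sub_self]
  -- `E X ^ k E' ≡ k U`
  have hpow : ∀ k : ℕ, ∀ i j, (E * X ^ k * E' - (k : R) • U) i j ∈ maximalIdeal R * J := by
    intro k
    induction k with
    | zero => simp [hE0]
    | succ k ih =>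
      have hk : ∀ i j, (X ^ k - 1) i j ∈ maximalIdeal R := by
        rw [← map_quotient_eq_zero_iff] at hX ⊢
        rw [map_sub, map_one, sub_eq_zero] at hX
        rw [map_sub, map_pow, hX, one_pow, map_one, sub_self]
      have key : E * X ^ (k + 1) * E' - ((k + 1 : ℕ) : R) • U =
          (E * (X ^ k - 1)) * U + (E * X ^ k * E' - (k : R) • U) * (X * E') +
            (k : R) • (U * ((X - 1) * E')) := by
        have h1 : U * E' = U := by rw [hU, mul_assoc (E * X), hE']
        have h2 : E * U = U := by rw [hU, ← mul_assoc, ← mul_assoc, hE]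
        have h3 : E * X ^ (k + 1) * E' =
            E * X ^ k * U + E * X ^ k * E' * (X * E') := by
          rw [hU, pow_succ]
          calc E * (X ^ k * X) * E' = E * X ^ k * (1 * (X * E')) := by
                rw [one_mul]; simp only [mul_assoc]
            _ = _ := by rw [← hEE', add_mul, mul_add]; simp only [mul_assoc]
        rw [h3, mul_sub, mul_one, sub_mul, h2, sub_mul, sub_mul, smul_mul_assoc, one_mul, mul_sub,
          h1, Nat.cast_succ, add_smul, one_smul, smul_sub]
        abel
      rw [key]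
      intro i j
      rw [Matrix.add_apply, Matrix.add_apply, Matrix.smul_apply, smul_eq_mul, Matrix.mul_apply,
        Matrix.mul_apply, Matrix.mul_apply]
      refine add_mem (add_mem ?_ ?_) (Ideal.mul_mem_left _ _ ?_)
      · refine sum_mem fun l _ => Ideal.mul_mem_mul ?_ (hUJ l j)
        rw [Matrix.mul_apply]
        exact sum_mem fun m _ => Ideal.mul_mem_left _ _ (hk m l)
      · exact sum_mem fun l _ => Ideal.mul_mem_right _ _ (ih i l)
      · refine sum_mem fun l _ => ?_
        rw [mul_comm (U i l)]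
        refine Ideal.mul_mem_mul ?_ (hUJ i l)
        rw [Matrix.mul_apply]
        exact sum_mem fun m _ => Ideal.mul_mem_right _ _ (hX l m)
  have hrel : a • U = b • (E * X ^ n * E') := by
    rw [hU, ← smul_mul_assoc, ← smul_mul_assoc, ← hEF, mul_assoc E F X, h, ← mul_assoc E,
      mul_assoc (E * X ^ n), hFE', mul_smul_comm]
  obtain ⟨u, hu⟩ := hu
  have hJ : J ≤ maximalIdeal R * J := by
    refine Ideal.span_le.mpr ?_
    rintro _ ⟨⟨i, j⟩, rfl⟩
    have h1 := congrFun (congrFun hrel i) j
    simp only [Matrix.smul_apply, smul_eq_mul] at h1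
    have h2 : (a - n * b) * U i j = b * (E * X ^ n * E' - (n : R) • U) i j := by
      rw [Matrix.sub_apply, Matrix.smul_apply, smul_eq_mul]
      linear_combination h1
    have h3 := Ideal.mul_mem_left (maximalIdeal R * J) ↑u⁻¹
      (Ideal.mul_mem_left _ b (hpow n i j))
    rw [← h2, ← hu, ← mul_assoc, Units.inv_mul, one_mul] at h3
    exact h3
  have hJ0 : J = ⊥ := Submodule.eq_bot_of_le_smul_of_le_jacobson_bot (maximalIdeal R) J
    (IsNoetherian.noetherian J) hJ (jacobson_eq_maximalIdeal ⊥ bot_ne_top).ge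
  exact Matrix.ext fun i j => by simpa [hJ0] using hUJ i j

/-- **Diagonalisation.** `X = (1 + t) E + (1 + t') (1 - E)`. -/
theorem exists_eq_smul_idempotent [IsNoetherianRing R] {F X : M₂} {a b : R} {n : ℕ}
    (hab : a + b = F.trace) (hprod : a * b = F.det) (hu : IsUnit (a - b))
    (h : F * X = X ^ n * F) (hX : ∀ i j, (X - 1) i j ∈ maximalIdeal R)
    (hu1 : IsUnit (a - n * b)) (hu2 : IsUnit (b - n * a)) :
    ∃ (E : M₂) (t t' : R), E.det = 0 ∧ E.trace = 1 ∧ t ∈ maximalIdeal R ∧
      X = (1 + t) • E + (1 + t') • (1 - E) := by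
  obtain ⟨E, ht, hd, hEE, hEF, hFE, hFE', hE'F⟩ := exists_idempotent hab hprod hu
  set E' := 1 - E with hE'
  have hsum : E + E' = 1 := add_sub_cancel E 1
  have hd' : E'.det = 0 := det_one_sub hd ht
  have hEE' : E' * E' = E' := by
    rw [hE', sub_mul, one_mul, mul_sub, mul_one, hEE, sub_self, sub_zero]
  have h1 : E * X * E' = 0 := offDiag_eq_zero hsum hEE hEE' hEF hFE' h hX hu1
  have h2 : E' * X * E = 0 :=
    offDiag_eq_zero ((add_comm _ _).trans hsum) hEE' hEE hE'F hFE h hX hu2
  refine ⟨E, (E * X).trace - 1, (E' * X).trace - 1, hd, ht, ?_, ?_⟩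
  · have h3 : (E * X).trace - 1 = (E * (X - 1)).trace := by
      rw [mul_sub, mul_one, Matrix.trace_sub, ht]
    rw [h3, Matrix.trace_fin_two, Matrix.mul_apply, Matrix.mul_apply]
    exact add_mem (sum_mem fun l _ => Ideal.mul_mem_left _ _ (hX l 0))
      (sum_mem fun l _ => Ideal.mul_mem_left _ _ (hX l 1))
  · rw [add_sub_cancel, add_sub_cancel, ← mul_mul_self_of_det_eq_zero hd,
      ← mul_mul_self_of_det_eq_zero hd']
    calc X = (E + E') * X * (E + E') := by rw [hsum, one_mul, mul_one]
      _ = E * X * E + E * X * E' + (E' * X * E + E' * X * E') := by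
          simp only [add_mul, mul_add]
          abel
      _ = E * X * E + E' * X * E' := by rw [h1, h2, add_zero, zero_add]

end Fermat.Agent.Lifting.TW
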