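import Fermat.Agent.Lifting.TW.Idempotent
import Fermat.Agent.Lifting.Deform.Tame

/-!
# Inertia of a deformation at a Taylor–Wiles prime

At a prime `q ≡ 1 (mod p)` where a lift with trivial determinant on inertia is residually
unramified and Frobenius has distinct residual eigenvalues, one element `t` of the maximal ideal
satisfies `t² = (1 + t) (tr ρ(σ) - 2)` for a tame generator `σ`, and `ρ` is unramified at `q`
modulo `t`; `t` lies in the ideal of the entries of `ρ(σ) - 1`.
-/

set_option autoImplicit false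

noncomputable section

namespace Fermat.Agent.Lifting.TW

open IsLocalRing
open Fermat.Agent.Arith Fermat.Agent.EC.Rep Fermat.Agent.EC.Reduction
open Deform (Gal M2 IsCont)
open scoped Pointwise

/-- A tame element at `q` acting on the `q`-th roots of unity by a generator of `(ℤ/q)ˣ`. -/
theorem exists_generator_tameElt {p q : ℕ} (hp : p.Prime) (hq : q.Prime) (hpq : p ∣ q - 1)
    {P : ValuationSubring QBar} (hP : P.LiesOverPrime q) :
    ∃ (σ : Gal) (a : (ZMod q)ˣ), IsTameElt p q P σ ∧ orderOf a = q - 1 ∧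
      ∀ μ : QBar, μ ^ q = 1 → σ μ = μ ^ (a : ZMod q).val := by
  obtain ⟨σ, a, π, m, hσ, hμ, ha, hπ, hord, h1, h2⟩ :=
    RT.Assembly.exists_inertia_uniformiser hp hP hq hpq
  have hq0 : (q : QBar) ≠ 0 := Nat.cast_ne_zero.mpr hq.ne_zero
  have hp0 : (p : ℚ) ≠ 0 := Nat.cast_ne_zero.mpr hp.ne_zero
  by_cases hm : (p : ℤ) ∣ m
  · -- then `π` is a power of `q` times a unit, so its residual character is trivial
    exfalso
    obtain ⟨k, rfl⟩ := hm
    have hqk : (q : QBar) ^ k ≠ 0 := zpow_ne_zero k hq0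
    have hv : P.valuation (π / (q : QBar) ^ k) = 1 :=
      (Mazur.Eisenstein.ordAt_eq_zero_iff hP hq (div_ne_zero hπ hqk)).mp (by
        rw [Mazur.Eisenstein.ordAt_div hP hq hπ hqk, hord, Mazur.Eisenstein.ordAt_prime_zpow hP hq]
        push_cast
        field_simp
        ring)
    rw [map_div₀, div_eq_one_iff_eq (P.valuation.ne_zero_iff.mpr hqk)] at hv
    exact h1 (by rw [RT.Assembly.res_apply_div_self_of_valuation_eq hσ hπ hqk hv, map_zpow₀,
      map_natCast, div_self hqk, res_one])
  · obtain ⟨u, hu⟩ : ∃ u : ℕ, (p : ℤ) ∣ u * m - 1 := by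
      have := Fact.mk hp
      refine ⟨((m : ZMod p)⁻¹).val, (ZMod.intCast_zmod_eq_zero_iff_dvd _ p).mp ?_⟩
      push_cast
      rw [ZMod.natCast_zmod_val, inv_mul_cancel₀ fun h =>
        hm ((ZMod.intCast_zmod_eq_zero_iff_dvd _ p).mp h), sub_self]
    obtain ⟨w, hw⟩ := hu
    have hqw : (q : QBar) ^ (-w) ≠ 0 := zpow_ne_zero _ hq0
    have hπ' : π ^ u * (q : QBar) ^ (-w) ≠ 0 := mul_ne_zero (pow_ne_zero u hπ) hqw
    have hres : res P (σ (π ^ u * (q : QBar) ^ (-w)) / (π ^ u * (q : QBar) ^ (-w))) =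
        res P (σ π / π) ^ u := by
      rw [← res_pow (apply_div_self_mem hσ hπ).1]
      congr 1
      rw [map_mul, map_pow, map_zpow₀, map_natCast, mul_div_mul_right _ _ hqw, div_pow]
    refine ⟨σ, a, ⟨hσ, _, hπ', ?_, ?_, ?_⟩, ha, hμ⟩
    · rw [Mazur.Eisenstein.ordAt_mul hP hq (pow_ne_zero u hπ) hqw,
        Mazur.Eisenstein.ordAt_pow hP hq hπ, Mazur.Eisenstein.ordAt_prime_zpow hP hq, hord]
      have hw' : (u : ℚ) * m - 1 = p * w := by exact_mod_cast hw
      push_cast
      field_simp
      linear_combination hw'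
    · rw [hres]
      intro hu1
      have hpu : p ∣ u := by
        rw [← orderOf_eq_prime (hp := ⟨hp⟩) h2 h1]
        exact orderOf_dvd_of_pow_eq_one hu1
      obtain ⟨c, rfl⟩ := hpu
      refine hp.not_dvd_one (Int.natCast_dvd_natCast.mp ?_)
      rw [Nat.cast_one]
      exact ⟨(c : ℤ) * m - w, by push_cast at hw; linear_combination -hw⟩
    · rw [hres, ← pow_mul, mul_comm, pow_mul, h2, one_pow]

variable {R : Type} [CommRing R] [IsLocalRing R] [IsNoetherianRing R]
  [IsAdicComplete (maximalIdeal R) R] {p : ℕ} [hp : Fact p.Prime]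

/-- **Inertia at a Taylor–Wiles prime.** -/
theorem exists_inertiaRoot {r : Gal →* M2 R} (hr : IsCont r) (hpR : (p : R) ∈ maximalIdeal R)
    {q : ℕ} (hq : q.Prime) (hqp : q ≠ p) (hq1 : p ∣ q - 1)
    (hres : ∀ P : ValuationSubring QBar, P.LiesOverPrime q →
      ∀ g ∈ P.inertiaSubgroupIn ℚ, ∀ i j, (r g - 1) i j ∈ maximalIdeal R)
    {P : ValuationSubring QBar} (hP : P.LiesOverPrime q) {φ : Gal} (hφ : P.IsFrobeniusAt φ q)
    {α β : ResidueField R} (hαβ : α ≠ β) (htr : α + β = residue R (r φ).trace)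
    (hdet : α * β = residue R (r φ).det) {σ : Gal} (hσ : IsTameElt p q P σ)
    (hσdet : (r σ).det = 1) :
    ∃ t ∈ maximalIdeal R, t * t = (1 + t) * ((r σ).trace - 2) ∧ t ∈ entryIdeal r {σ} ∧
      ∀ P' : ValuationSubring QBar, P'.LiesOverPrime q →
        ∀ g ∈ P'.inertiaSubgroupIn ℚ, ∀ i j, (r g - 1) i j ∈ Ideal.span {t} := by
  have hqR : residue R (q : R) = 1 := by
    obtain ⟨k, hk⟩ := hq1
    have hq' : q = p * k + 1 := by have := hq.one_lt; omega
    rw [hq', Nat.cast_add, Nat.cast_mul, Nat.cast_one, map_add, map_mul,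
      (residue_eq_zero_iff _).mpr hpR, zero_mul, zero_add, map_one]
  -- the eigenvalues of Frobenius
  have : HenselianRing R (maximalIdeal R) := IsAdicComplete.henselianRing R _
  obtain ⟨a₀, ha₀⟩ := residue_surjective α
  obtain ⟨a, hroot, ha⟩ := HenselianRing.is_henselian (I := maximalIdeal R)
    (Polynomial.X ^ 2 - Polynomial.C (r φ).trace * Polynomial.X + Polynomial.C (r φ).det)
    (by monicity!) a₀
    ((residue_eq_zero_iff _).mp (by
      simp only [Polynomial.eval_add, Polynomial.eval_sub, Polynomial.eval_pow, Polynomial.eval_X,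
        Polynomial.eval_C, Polynomial.eval_mul, map_add, map_sub, map_mul, map_pow, ha₀, ← htr,
        ← hdet]
      ring))
    (by
      refine IsUnit.map _ ?_
      refine (IsLocalRing.notMem_maximalIdeal.mp fun h => hαβ ?_)
      have h' := (residue_eq_zero_iff _).mpr h
      simp at h'
      linear_combination h' - 2 * ha₀ - htr)
  simp only [Polynomial.IsRoot, Polynomial.eval_add, Polynomial.eval_sub, Polynomial.eval_pow,
    Polynomial.eval_X, Polynomial.eval_C, Polynomial.eval_mul] at hroot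
  have hra : residue R a = α := by
    rw [← ha₀, ← sub_eq_zero, ← map_sub, residue_eq_zero_iff]
    exact ha
  have hrb : residue R ((r φ).trace - a) = β := by
    rw [map_sub, ← htr, hra, add_sub_cancel_left]
  have hunit : ∀ {x : R}, residue R x ≠ 0 → IsUnit x := fun {x} hx => by
    by_contra h
    exact hx ((residue_eq_zero_iff x).mpr ((mem_maximalIdeal x).mpr h))
  obtain ⟨E, t, t', hd, ht, htm, hX⟩ := exists_eq_smul_idempotent (F := r φ) (X := r σ) (a := a)
    (b := (r φ).trace - a) (n := q) (add_sub_cancel _ _) (by linear_combination -hroot)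
    (hunit (by rw [map_sub, hra, hrb]; exact sub_ne_zero.mpr hαβ))
    (frobenius_mul_inertia hr hpR hq hqp hP (hres P hP) hφ hσ.mem) (hres P hP σ hσ.mem)
    (hunit (by rw [map_sub, map_mul, hqR, one_mul, hra, hrb]; exact sub_ne_zero.mpr hαβ))
    (hunit (by rw [map_sub, map_mul, hqR, one_mul, hra, hrb]; exact sub_ne_zero.mpr hαβ.symm))
  have hdet1 : (1 + t) * (1 + t') = 1 := by
    rw [← det_smul_add_smul_one_sub hd ht, ← hX, hσdet]
  refine ⟨t, htm, ?_, ?_, fun P' hP' g hg => ?_⟩
  · rw [hX, Matrix.trace_add, Matrix.trace_smul, Matrix.trace_smul, Matrix.trace_sub, ht,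
      Matrix.trace_one, Fintype.card_fin, smul_eq_mul, smul_eq_mul]
    linear_combination -hdet1
  · have hEE : E * (1 - E) = 0 := by
      rw [mul_sub, mul_one, sq_eq_trace_smul_sub, ht, hd, one_smul, zero_smul, sub_zero, sub_self]
    have e : (E * (r σ - 1)).trace = t := by
      have e1 : r σ - 1 = t • E + t' • (1 - E) := by
        rw [hX, add_smul, add_smul, one_smul, one_smul]
        abel
      have hEE' : E * E = E := by rw [sq_eq_trace_smul_sub, ht, hd, one_smul, zero_smul, sub_zero]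
      rw [e1, mul_add, mul_smul_comm, mul_smul_comm, hEE, hEE', smul_zero, add_zero,
        Matrix.trace_smul, ht, smul_eq_mul, mul_one]
    rw [← e, Matrix.trace_fin_two, Matrix.mul_apply, Matrix.mul_apply]
    exact add_mem (sum_mem fun l _ => Ideal.mul_mem_left _ _
      (sub_one_mem_entryIdeal (Set.mem_singleton σ) l 0))
      (sum_mem fun l _ => Ideal.mul_mem_left _ _ (sub_one_mem_entryIdeal (Set.mem_singleton σ) l 1))
  · have hσt : ∀ i j, (r σ - 1) i j ∈ Ideal.span {t} := fun i j => by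
      have e : r σ - 1 = t • E + t' • (1 - E) := by
        rw [hX, add_smul, add_smul, one_smul, one_smul]
        abel
      have ht' : t' = t * -(1 + t') := by linear_combination hdet1
      rw [e, Matrix.add_apply, Matrix.smul_apply, Matrix.smul_apply, smul_eq_mul, smul_eq_mul, ht',
        mul_assoc]
      exact add_mem (Ideal.mul_mem_right _ _ (Ideal.mem_span_singleton_self t))
        (Ideal.mul_mem_right _ _ (Ideal.mem_span_singleton_self t))
    have hle := entryIdeal_inertia_le hr hpR hq hqp hP (hres P hP) hσ hσt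
    obtain ⟨γ, rfl⟩ := exists_smul_eq hP hP' hq
    have hg' : γ⁻¹ * g * γ ∈ P.inertiaSubgroupIn ℚ :=
      mem_inertia_smul_iff.mp
        (by group; exact hg : γ * (γ⁻¹ * g * γ) * γ⁻¹ ∈ (γ • P).inertiaSubgroupIn ℚ)
    intro i j
    have h := sub_one_mem_of_conj (g := γ)
      (fun i j => hle (sub_one_mem_entryIdeal hg' i j)) i j
    rwa [show γ * (γ⁻¹ * g * γ) * γ⁻¹ = g by group] at h

end Fermat.Agent.Lifting.TW
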