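import Fermat.Agent.Lifting.Degeneracy.OldIso

/-!
# The localised part and the set of excluded primes

Excluding more primes does not change the localised part, provided the operators at the further
primes act on it through operators of the right residue.
-/

set_option autoImplicit false
set_option linter.overlappingInstances false

noncomputable section

namespace Fermat.Agent.Lifting.TW

open IsLocalRing MvPolynomial
open Fermat.Agent.RT.GammaH Fermat.Agent.Lifting.Degeneracy

variable {O : Type} [CommRing O] {L : ℕ} {S S' : Finset ℕ} (hSS : S ⊆ S')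
  {K : Subgroup (ZMod L)ˣ}

variable (O S S' K) in
/-- The same homomorphisms with another set of excluded primes. -/
def changeS : HomMod O S' K O ≃ₗ[O] HomMod O S K O :=
  (toHomMod (O := O) (S := S') (K := K) (A := O)).symm.trans toHomMod

variable (O L) in
/-- The operators away from `S'` as operators away from `S`. -/
def forgetOps : OpRing O L S' →ₐ[O] OpRing O L S :=
  rename (Sum.map id fun ℓ => ⟨ℓ.1, ℓ.2.1, fun h => ℓ.2.2 (hSS h)⟩)

theorem changeS_smul (a : OpRing O L S') (x : HomMod O S' K O) :
    changeS O S S' K (a • x) = forgetOps O L hSS a • changeS O S S' K x := by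
  induction a using MvPolynomial.induction_on generalizing x with
  | C c => rw [← algebraMap_eq, AlgHom.commutes, algebraMap_smul, algebraMap_smul, map_smul]
  | add a b ha hb => rw [add_smul, map_add, ha, hb, map_add, add_smul]
  | mul_X a i ih =>
    rw [mul_smul, ih, map_mul, mul_smul]
    congr 1
    rcases i with u | ℓ
    · rw [X_inl_smul, forgetOps, rename_X, Sum.map_inl, X_inl_smul]
      rfl
    · have : Fact ℓ.1.Prime := ⟨ℓ.2.1⟩
      have h2 := X_inr_smul (O := O) (M := L) (K := K) (A := O)
        ⟨ℓ.1, ℓ.2.1, fun h => ℓ.2.2 (hSS h)⟩ (changeS O S S' K x)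
      rw [X_inr_smul, forgetOps, rename_X, Sum.map_inr, h2]
      rfl

include hSS in
theorem opRes_forgetOps [IsLocalRing O] (abar : ℕ → ResidueField O) (a : OpRing O L S') :
    opRes S abar L (forgetOps O L hSS a) = opRes S' abar L a := by
  refine DFunLike.congr_fun (MvPolynomial.algHom_ext (f := (opRes S abar L).comp (forgetOps O L hSS))
    (g := opRes S' abar L) fun i => ?_) a
  rcases i with u | ℓ <;> simp [forgetOps, opRes]

variable [IsDomain O] [IsDiscreteValuationRing O] [IsAdicComplete (maximalIdeal O) O] [NeZero L]
  {abar : ℕ → ResidueField O}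

include hSS in
/-- The localised part does not change. -/
theorem changeS_mem_locSub_iff
    (hextra : ∀ q ∈ S', q ∉ S → ∀ [Fact q.Prime], ∃ t : OpRing O L S',
      opRes S' abar L t = abar q ∧ ∀ x ∈ locSub O S' abar K, heckeH O S' q x = t • x)
    (x : HomMod O S' K O) :
    changeS O S S' K x ∈ locSub O S abar K ↔ x ∈ locSub O S' abar K := by
  classical
  set e := changeS O S S' K
  constructor
  · intro hx
    set a := forgetOps O L hSS (locElt O S' abar K)
    have hidem : a • a • e x = a • e x := by
      rw [← changeS_smul, ← changeS_smul, (isLocalizer_locElt O S' abar K).idem]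
    have hna : a ∉ resIdeal S abar L := fun h => by
      rw [mem_resIdeal, opRes_forgetOps] at h
      have h1 := (isLocalizer_locElt O S' abar K).sub_one_mem
      rw [mem_resIdeal, map_sub, h, map_one, zero_sub, neg_eq_zero] at h1
      exact one_ne_zero h1
    have h0 := Degeneracy.eq_zero_of_smul_eq_zero hna (sub_mem (smul_mem_locSub a hx) hx)
      (by rw [smul_sub, hidem, sub_self])
    refine e.injective ?_
    rw [changeS_smul hSS]
    exact sub_eq_zero.1 h0
  · intro hx
    have hex : ∀ q : {ℓ : ℕ // ℓ.Prime ∧ ℓ ∉ S}, q.1 ∈ S' → ∃ t : OpRing O L S',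
        opRes S' abar L t = abar q.1 ∧
          ∀ y ∈ locSub O S' abar K, (X (Sum.inr q) : OpRing O L S) • e y = e (t • y) := by
      intro q hq
      have : Fact q.1.Prime := ⟨q.2.1⟩
      obtain ⟨t, ht, hty⟩ := hextra q.1 hq q.2.2
      refine ⟨t, ht, fun y hy => ?_⟩
      rw [X_inr_smul, ← hty y hy]
      rfl
    choose T hTres hTy using hex
    let ψ : OpRing O L S →ₐ[O] OpRing O L S' := aeval (Sum.elim (fun u => X (Sum.inl u))
      fun q => if h : q.1 ∈ S' then T q h else X (Sum.inr ⟨q.1, q.2.1, h⟩))
    have hψX : ∀ i, ∀ y ∈ locSub O S' abar K,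
        (X i : OpRing O L S) • e y = e (ψ (X i) • y) := by
      intro i y hy
      simp only [ψ, aeval_X]
      rcases i with u | q
      · rw [Sum.elim_inl, changeS_smul hSS, forgetOps, rename_X, Sum.map_inl]
        rfl
      · rw [Sum.elim_inr]
        split_ifs with h
        · exact hTy q h y hy
        · rw [changeS_smul hSS, forgetOps, rename_X, Sum.map_inr]
    have hψ : ∀ (a : OpRing O L S), ∀ y ∈ locSub O S' abar K, a • e y = e (ψ a • y) := by
      intro a
      induction a using MvPolynomial.induction_on with
      | C c =>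
        intro y _
        rw [← algebraMap_eq, AlgHom.commutes, algebraMap_smul, algebraMap_smul, map_smul]
      | add a b ha hb =>
        intro y hy
        rw [add_smul, map_add, add_smul, map_add, ha y hy, hb y hy]
      | mul_X a i ih =>
        intro y hy
        rw [mul_smul, hψX i y hy, ih _ (smul_mem_locSub _ hy), map_mul, mul_smul]
    have hres : ∀ a, opRes S' abar L (ψ a) = opRes S abar L a := fun a =>
      DFunLike.congr_fun (MvPolynomial.algHom_ext (f := (opRes S' abar L).comp ψ)
        (g := opRes S abar L) fun i => by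
          rcases i with u | q
          · simp [ψ, opRes]
          · simp only [ψ, AlgHom.comp_apply, aeval_X, Sum.elim_inr, opRes_inr]
            split_ifs with h
            exacts [hTres q h, opRes_inr S' abar _]) a
    set a := ψ (locElt O S abar K)
    have hidem : a • a • x = a • x := e.injective (by
      rw [← hψ _ _ (smul_mem_locSub a hx), ← hψ _ _ hx, (isLocalizer_locElt O S abar K).idem])
    have hna : a ∉ resIdeal S' abar L := fun h => by
      rw [mem_resIdeal, hres] at h
      have h1 := (isLocalizer_locElt O S abar K).sub_one_mem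
      rw [mem_resIdeal, map_sub, h, map_one, zero_sub, neg_eq_zero] at h1
      exact one_ne_zero h1
    have h0 := Degeneracy.eq_zero_of_smul_eq_zero hna (sub_mem (smul_mem_locSub a hx) hx)
      (by rw [smul_sub, hidem, sub_self])
    show locElt O S abar K • e x = e x
    rw [hψ _ _ hx, sub_eq_zero.1 h0]

variable (hextra : ∀ q ∈ S', q ∉ S → ∀ [Fact q.Prime], ∃ t : OpRing O L S',
  opRes S' abar L t = abar q ∧ ∀ x ∈ locSub O S' abar K, heckeH O S' q x = t • x)

/-- The two localised parts are the same. -/
def locSubEquiv : locSub O S' abar K ≃ₗ[O] locSub O S abar K :=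
  (changeS O S S' K).ofSubmodules _ _ (by
    ext y
    rw [Submodule.mem_map]
    refine ⟨fun ⟨x, hx, hxy⟩ => hxy ▸ (changeS_mem_locSub_iff hSS hextra x).2 hx, fun hy => ?_⟩
    exact ⟨(changeS O S S' K).symm y, (changeS_mem_locSub_iff hSS hextra _).1
      (by rwa [LinearEquiv.apply_symm_apply]), LinearEquiv.apply_symm_apply _ _⟩)

theorem coe_locSubEquiv (x : locSub O S' abar K) :
    ((locSubEquiv hSS hextra x : locSub O S abar K) : HomMod O S K O) = changeS O S S' K x := rfl

end Fermat.Agent.Lifting.TW

end
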