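import Fermat.Agent.Lifting.TW.Char
import Fermat.Agent.Lifting.TW.LocChange
import Fermat.Agent.Lifting.Module.Constructor
import Fermat.Agent.Lifting.Degeneracy.Composite

/-!
# The module of a Taylor–Wiles level

On the localised module of `ker ψ` the diamonds of the standard generators commute with the
operators, the module is free over the group of the level, and corestriction to `Γ₀(N)` has as
kernel the span of the `y i - 1`.
-/

set_option autoImplicit false
set_option linter.overlappingInstances false

noncomputable section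

namespace Fermat.Agent.Lifting.TW

open IsLocalRing MvPolynomial
open Fermat.Agent.RT.GammaH Fermat.Agent.Lifting.Degeneracy
open Fermat.Agent.RT (halfInvExp)

/-- The exponent of the twist at a Taylor–Wiles level is `halfInvExp` of its group. -/
theorem weightExp_twWeight {p r n : ℕ} [NeZero p] {qv : Fin r → ℕ} (hinj : Function.Injective qv)
    {N : ℕ} (hN : N ≠ 0) (hprime : ∀ i, (qv i).Prime) (hdvd : ∀ i, qv i ∣ N) :
    weightExp (twWeight p n (Finset.univ.image qv)) N = halfInvExp (TWGroup p r n) := by
  classical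
  have hsub : Finset.univ.image qv ⊆ N.primeFactors := fun q hq => by
    obtain ⟨i, -, rfl⟩ := Finset.mem_image.mp hq
    exact Nat.mem_primeFactors.2 ⟨hprime i, hdvd i, hN⟩
  rw [weightExp, halfInvExp, card_twGroup,
    ← Finset.prod_subset hsub fun q _ hq => show twWeight p n _ q = 1 from if_neg hq,
    Finset.prod_congr rfl fun q hq => show twWeight p n _ q = p ^ n from if_pos hq,
    Finset.prod_const,
    Finset.card_image_of_injective _ hinj, Finset.card_univ, Fintype.card_fin, ← pow_mul]

variable {O : Type} [CommRing O] [IsDomain O] [IsDiscreteValuationRing O]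
  [IsAdicComplete (maximalIdeal O) O] [Finite (ResidueField O)]
  {p : ℕ} [Fact p.Prime] [CharP (ResidueField O) p] {r n : ℕ}
  {N : ℕ} [NeZero N] {ψ : (ZMod N)ˣ →* TWGroup p r n} {S : Finset ℕ}
  {abar : ℕ → ResidueField O} {e : OpRing O N S}

omit [IsAdicComplete (maximalIdeal O) O] [Finite (ResidueField O)] [Fact p.Prime]
  [CharP (ResidueField O) p] [NeZero N] [IsDomain O] [IsDiscreteValuationRing O] in
/-- Corestriction does not see diamonds. -/
theorem coresLin_diamond [Fintype ((ZMod N)ˣ ⧸ ψ.ker)] (u : (ZMod N)ˣ)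
    (x : HomMod O S ψ.ker O) :
    coresLin S ψ.ker O ((X (Sum.inl u) : OpRing O N S) • x) = coresLin S ψ.ker O x := by
  rw [map_smul, X_inl_smul]
  exact diamond_top O u _

omit [IsAdicComplete (maximalIdeal O) O] [Finite (ResidueField O)] [NeZero N] in
/-- **The kernel of corestriction on the localised module.** -/
theorem coresLin_eq_zero_iff [Fintype ((ZMod N)ˣ ⧸ ψ.ker)] (hp2 : p ≠ 2)
    (hfree : Module.FreeLevel p N) (hneg : -1 ∈ ψ.ker) (hψ : Function.Surjective ψ)
    (heH : IsLocalizer (resIdeal S abar N) (HomMod O S ψ.ker O) e)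
    (x : localPart O e (HomMod O S ψ.ker O)) :
    coresLin S ψ.ker O (x : HomMod O S ψ.ker O) = 0 ↔
      x ∈ ⨆ i : Fin r, LinearMap.range (Module.moduleDia e hψ (twGen p n i) - 1) := by
  set Y := ⨆ i : Fin r, LinearMap.range (Module.moduleDia e hψ (twGen p n i) - 1)
  constructor
  · intro h0
    obtain ⟨y, hy, hsum⟩ :=
      Module.exists_eq_sum_of_coresLin_eq_zero S abar heH hp2 hfree hneg x.2 h0
    have hx : x = ∑ q, (Module.moduleDia e hψ (ψ q.out) - 1) ⟨y q, hy q⟩ := Subtype.ext (by
      rw [AddSubmonoidClass.coe_finsetSum, hsum]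
      exact Finset.sum_congr rfl fun q _ => by
        rw [LinearMap.sub_apply, Module.End.one_apply, AddSubgroupClass.coe_sub,
          Module.moduleDia_psi, coe_localAct_apply])
    have hgen : ∀ δ : TWGroup p r n, ∀ z, (Module.moduleDia e hψ δ - 1) z ∈ Y := by
      intro δ
      rw [← prod_twGen_pow p n δ]
      refine Finset.prod_induction (fun i => twGen p n i ^ (δ.toAdd i).val)
        (fun ε => ∀ z, (Module.moduleDia e hψ ε - 1) z ∈ Y) (fun a b ha hb z => ?_)
        (fun z => by rw [map_one, sub_self]; exact zero_mem _) fun i _ z => ?_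
      · rw [map_mul, show (Module.moduleDia e hψ a * Module.moduleDia e hψ b - 1) z =
          (Module.moduleDia e hψ a - 1) (Module.moduleDia e hψ b z) +
            (Module.moduleDia e hψ b - 1) z by
          simp [LinearMap.sub_apply, Module.End.mul_apply]]
        exact add_mem (ha _) (hb z)
      · induction (δ.toAdd i).val generalizing z with
        | zero => rw [pow_zero, map_one, sub_self]; exact zero_mem _
        | succ k ih =>
          rw [pow_succ', map_mul, show (Module.moduleDia e hψ (twGen p n i) *
              Module.moduleDia e hψ (twGen p n i ^ k) - 1) z =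
            (Module.moduleDia e hψ (twGen p n i) - 1) (Module.moduleDia e hψ (twGen p n i ^ k) z) +
              (Module.moduleDia e hψ (twGen p n i ^ k) - 1) z by
            simp [LinearMap.sub_apply, Module.End.mul_apply]]
          exact add_mem (Submodule.mem_iSup_of_mem i ⟨_, rfl⟩) (ih z)
    rw [hx]
    exact sum_mem fun q _ => hgen _ _
  · intro hx
    induction hx using Submodule.iSup_induction' with
    | mem i z hz =>
      obtain ⟨w, rfl⟩ := hz
      obtain ⟨u, hu⟩ := hψ (twGen p n i)
      rw [← hu, LinearMap.sub_apply, Module.End.one_apply, AddSubgroupClass.coe_sub,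
        Module.moduleDia_psi, coe_localAct_apply, map_sub, coresLin_diamond, sub_self]
    | zero => rw [ZeroMemClass.coe_zero, map_zero]
    | add a b _ _ ha hb => rw [AddMemClass.coe_add, map_add, ha, hb, add_zero]

omit [IsDomain O] [IsDiscreteValuationRing O] [IsAdicComplete (maximalIdeal O) O]
  [Finite (ResidueField O)] [CharP (ResidueField O) p] in
/-- A basis over the group of the level in exponent vectors. -/
theorem twBasis_bijective {M M' : Type} [AddCommGroup M] [Module O M] [AddCommGroup M']
    [Module O M'] (ε : M' ≃ₗ[O] M) (dia : TWGroup p r n →* Module.End O M) {d : ℕ} (b : Fin d → M)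
    (hb : Function.Bijective fun c : Fin d × TWGroup p r n →₀ O =>
      c.sum fun iδ x => x • dia iδ.2 (b iδ.1)) :
    Function.Bijective fun c : Fin d × (Fin r → Fin (p ^ n)) →₀ O =>
      c.sum fun iv x => x • ((List.ofFn fun j => (ε.symm.conjAlgEquiv O (dia (twGen p n j))) ^
        (iv.2 j : ℕ)).prod) (ε.symm (b iv.1)) := by
  have hterm : ∀ (v : Fin r → Fin (p ^ n)) (z : M),
      ((List.ofFn fun j => (ε.symm.conjAlgEquiv O (dia (twGen p n j))) ^ (v j : ℕ)).prod)
        (ε.symm z) = ε.symm (dia (twEquiv p r n v) z) := by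
    intro v z
    have h : (List.ofFn fun j => (ε.symm.conjAlgEquiv O (dia (twGen p n j))) ^ (v j : ℕ)) =
        (List.ofFn fun j => twGen p n j ^ (v j : ℕ)).map
          fun δ => ε.symm.conjAlgEquiv O (dia δ) := by
      rw [List.map_ofFn]
      exact congrArg List.ofFn (funext fun j => by rw [Function.comp_apply, map_pow, map_pow])
    let φ : TWGroup p r n →* Module.End O M' :=
      ((ε.symm.conjAlgEquiv O : Module.End O M →ₐ[O] Module.End O M') :
        Module.End O M →* Module.End O M').comp dia
    rw [h, show (fun δ => ε.symm.conjAlgEquiv O (dia δ)) = ⇑φ from rfl, ← map_list_prod,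
      List.prod_ofFn, ← twEquiv_eq_prod]
    show ε.symm (dia (twEquiv p r n v) (ε.symm.symm (ε.symm z))) = _
    rw [LinearEquiv.symm_symm, LinearEquiv.apply_symm_apply]
  let E := Equiv.prodCongr (Equiv.refl (Fin d)) (twEquiv p r n)
  have hfun : (fun c : Fin d × (Fin r → Fin (p ^ n)) →₀ O =>
      c.sum fun iv x => x • ((List.ofFn fun j => (ε.symm.conjAlgEquiv O (dia (twGen p n j))) ^
        (iv.2 j : ℕ)).prod) (ε.symm (b iv.1))) =
      ε.symm ∘ (fun c : Fin d × TWGroup p r n →₀ O => c.sum fun iδ x => x • dia iδ.2 (b iδ.1)) ∘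
        Finsupp.domCongr E := by
    funext c
    rw [Function.comp_apply, Function.comp_apply, Finsupp.domCongr_apply,
      Finsupp.equivMapDomain_eq_mapDomain, Finsupp.sum_mapDomain_index_inj E.injective,
      map_finsuppSum]
    exact Finsupp.sum_congr fun iv _ => by rw [hterm, map_smul]; rfl
  rw [hfun]
  exact ε.symm.bijective.comp (hb.comp (Finsupp.domCongr E).bijective)

omit [Finite (ResidueField O)] [CharP (ResidueField O) p] [Fact p.Prime] [NeZero N]
  [IsAdicComplete (maximalIdeal O) O] in
/-- The twisted operator as an element of the algebra of the module. -/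
theorem moduleDia_pow_mul_moduleT (hψ : Function.Surjective ψ) {h : ℕ}
    (ℓ : {ℓ : ℕ // ℓ.Prime ∧ ℓ ∉ S}) (hℓ : ℓ.1.Coprime N) :
    Module.moduleDia e hψ (ψ (ZMod.unitOfCoprime ℓ.1 hℓ)) ^ h * Module.moduleT ψ e ℓ.1 =
      localAct O e (HomMod O S ψ.ker O) (twEl O N S h ℓ hℓ) := by
  rw [twEl, map_mul, ← Module.moduleT_eq e ℓ, ← Module.moduleDia_psi e hψ, map_pow ψ, map_pow]

end Fermat.Agent.Lifting.TW

end
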