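import Fermat.Agent.Lifting.TW.Datum
import Fermat.Agent.Lifting.TW.LevelModule
import Fermat.Agent.Lifting.TW.GlueTrace
import Fermat.Agent.Lifting.Degeneracy.NotNew
import Fermat.Agent.Lifting.Eigen.ResidualSpecial

/-!
# The patching datum at a concrete Taylor–Wiles level

`N = L ∏ q i` and `S = S₀ ∪ {q i}`. A Hecke system on the localised module of the kernel of the
diamond character at `N`, the minimal system on the localised module of `Γ₀(L)` and the old
isomorphism give the `TWDatum` over the minimal deformation ring.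
-/

set_option autoImplicit false
set_option linter.overlappingInstances false
set_option linter.style.haveILetI false

noncomputable section

namespace Fermat.Agent.Lifting.TW

open IsLocalRing MvPolynomial
open Fermat.Agent.Arith (QBar)
open Fermat.Agent.RT.GammaH Fermat.Agent.Lifting.Degeneracy Fermat.Agent.Lifting.Assembly
open Fermat.Agent.RT (HeckeModule halfInvExp)
open Fermat.Agent.RT.Glue (diaA sA HasCharpolys)
open GaloisReps (HeckeGaloisModel)
open NewformLocal (UnipotentAt ToricSquareAt)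

variable {O : Type} [CommRing O] [IsDomain O] [IsDiscreteValuationRing O]
  [IsAdicComplete (maximalIdeal O) O] [Finite (ResidueField O)]
  {p : ℕ} [Fact p.Prime] [CharP (ResidueField O) p]
  {ρbar : ResidualGaloisRep (ResidueField O)} {abar : ℕ → ResidueField O}

omit [IsAdicComplete (maximalIdeal O) O] [Finite (ResidueField O)] [Fact p.Prime] in
/-- A prime `≡ 1 (mod p)` is `1` in the residue field. -/
theorem natCast_eq_one {q : ℕ} (hq : q.Prime) (h : p ∣ q - 1) : (q : ResidueField O) = 1 := by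
  have h1 : ((q - 1 : ℕ) : ResidueField O) = 0 :=
    (CharP.cast_eq_zero_iff (ResidueField O) p _).2 h
  rwa [Nat.cast_sub hq.one_le, sub_eq_zero, Nat.cast_one] at h1

omit [IsAdicComplete (maximalIdeal O) O] [Finite (ResidueField O)] [Fact p.Prime] in
/-- Distinct eigenvalues of Frobenius at such a prime: the trace squared is not `4`. -/
theorem abar_sq_ne {S₀ : Finset ℕ} (hbar : HasCharpolys S₀ abar ρbar) {q : ℕ} (hq : q.Prime)
    (hqS : q ∉ S₀) (h1 : p ∣ q - 1)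
    (hfrob : ∀ P : ValuationSubring QBar, P.LiesOverPrime q →
      ∀ φ : Deform.Gal, P.IsFrobeniusAt φ q → ∃ α β : ResidueField O, α ≠ β ∧
        LinearMap.charpoly (ρbar.ρ φ) =
          (Polynomial.X - Polynomial.C α) * (Polynomial.X - Polynomial.C β)) :
    abar q ^ 2 ≠ ((q : ResidueField O) + 1) ^ 2 := by
  obtain ⟨P, hP⟩ := Arith.exists_liesOverPrime hq
  obtain ⟨φ, hφ⟩ := Arith.exists_isFrobeniusAt hP hq
  obtain ⟨α, β, hne, hαβ⟩ := hfrob P hP φ hφ
  rw [hbar q hq hqS P hP φ hφ, natCast_eq_one hq h1] at hαβ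
  rw [show (Polynomial.X - Polynomial.C α) * (Polynomial.X - Polynomial.C β) =
    Polynomial.X ^ 2 - Polynomial.C (α + β) * Polynomial.X + Polynomial.C (α * β) by
    rw [Polynomial.C_add, Polynomial.C_mul]; ring] at hαβ
  have e1 := congrArg (fun Q => Polynomial.coeff Q 1) hαβ
  have e0 := congrArg (fun Q => Polynomial.coeff Q 0) hαβ
  simp [Polynomial.coeff_X_pow, Polynomial.coeff_one] at e1 e0
  rw [natCast_eq_one hq h1]
  intro h
  refine hne (sub_eq_zero.1 ((pow_eq_zero_iff two_ne_zero).1 ?_))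
  linear_combination h + (abar q + α + β) * e1 + 4 * e0

variable [CharZero O]

set_option maxHeartbeats 1600000 in
/-- **The patching datum of a Taylor–Wiles level.** -/
theorem exists_twDatum_level (hp2 : p ≠ 2) (hp : (p : O) ∈ maximalIdeal O)
    {K : PKind} {N₀ : Finset ℕ} {s : ℕ → ℤ} {L : ℕ} [NeZero L] (hL : Squarefree L)
    {S₀ : Finset ℕ} (hLS : ∀ v : ℕ, v.Prime → v ∣ L → v ∈ S₀) (hpS : p ∈ S₀)
    (hbar : HasCharpolys S₀ abar ρbar)
    (DR : GaloisRep.DeformationRingData O ρbar (liftCondition O p K N₀ ∅ s))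
    (H₀ : HeckeSystem O ρbar (liftCondition O p K N₀ ∅ s) S₀) (φ : DR.R →ₐ[O] H₀.T)
    (hφ : ∀ σ, φ (DR.ρ.trace σ) = H₀.ρ.trace σ) [Module DR.R H₀.M]
    (hsmul : ∀ (a : DR.R) (v : H₀.M), a • v = φ a • v)
    (e₀ : H₀.M ≃ₗ[O] locSub O S₀ abar (⊤ : Subgroup (ZMod L)ˣ))
    (he₀ : ∀ (ℓ : {ℓ : ℕ // ℓ.Prime ∧ ℓ ∉ S₀}) (x : H₀.M),
      (e₀ (H₀.op ℓ.1 • x) : HomMod O S₀ (⊤ : Subgroup (ZMod L)ˣ) O) =
        (X (Sum.inr ℓ) : OpRing O L S₀) • (e₀ x : HomMod O S₀ (⊤ : Subgroup (ZMod L)ˣ) O))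
    {r n : ℕ} {qv : Fin r → ℕ} (hinj : Function.Injective qv) [hq : ∀ i, Fact (qv i).Prime]
    (hqS : ∀ i, qv i ∉ S₀) (hqN : ∀ i, qv i ∉ insert p N₀) (hqn : ∀ i, p ^ (n + 1) ∣ qv i - 1)
    (hfrob : ∀ i, ∀ P : ValuationSubring QBar, P.LiesOverPrime (qv i) →
      ∀ φ : Deform.Gal, P.IsFrobeniusAt φ (qv i) → ∃ α β : ResidueField O, α ≠ β ∧
        LinearMap.charpoly (ρbar.ρ φ) =
          (Polynomial.X - Polynomial.C α) * (Polynomial.X - Polynomial.C β))
    (hunr : ∀ i, ρbar.IsUnramifiedAt (qv i))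
    (DQ : GaloisRep.DeformationRingData O ρbar (liftCondition O p K N₀ (Finset.univ.image qv) s))
    (γ : MvPowerSeries (Fin r) O →ₐ[O] DQ.R) (hγ : Function.Surjective γ)
    {N : ℕ} [NeZero N] (hN : N = L * ∏ q ∈ Finset.univ.image qv, q) (hd : L ∣ N)
    {S : Finset ℕ} (hSdef : S = S₀ ∪ Finset.univ.image qv)
    (hEis : ∃ ℓ : ℕ, ℓ.Prime ∧ ℓ ∉ S ∧ abar ℓ ≠ 1 + (ℓ : ResidueField O))
    (hfree : Module.FreeLevel p N) (hdrop : Module.CanDrop p S abar N)
    (hext : ∀ i, ∃ t : OpRing O L S, opRes S abar L t = abar (qv i) ∧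
      ∀ x ∈ locSub O S abar (⊤ : Subgroup (ZMod L)ˣ), heckeH O S (qv i) x = t • x)
    (hlevel : ∀ K' : Subgroup (ZMod N)ˣ, K' = diaSub (twWeight p n (Finset.univ.image qv)) N →
      ∃ (H₁ : HeckeSystem O ρbar (liftCondition O p K N₀ (Finset.univ.image qv) s) S)
        (e₁ : H₁.M ≃ₗ[O] locSub O S abar K'),
        ∀ (ℓ : {ℓ : ℕ // ℓ.Prime ∧ ℓ ∉ S}) (hℓ : ℓ.1.Coprime N) (x : H₁.M),
          (e₁ (H₁.op ℓ.1 • x) : HomMod O S K' O) =
            twEl O N S (weightExp (twWeight p n (Finset.univ.image qv)) N) ℓ hℓ •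
              (e₁ x : HomMod O S K' O))
    (D : ∀ (M : ℕ) [NeZero M], HeckeGaloisModel M p)
    (hlocal : ∀ (M : ℕ) [NeZero M] (v : ℕ), v.Prime → v ≠ p → v ∣ M → ¬ v ^ 2 ∣ M →
      UnipotentAt (D M) v ∧ ToricSquareAt (D M) v)
    (hES : ∀ (M : ℕ) [NeZero M], GaloisReps.CongruenceProperty M p)
    (hE : ∀ (v R M : ℕ) [Fact v.Prime] [NeZero R] [NeZero M]
      (g : CuspForm (CongruenceSubgroup.Gamma0 M) 2), RT.InertiaTW.TraceInertia p v R M g) :
    Nonempty (TWDatum O p r (2 ^ r * Module.finrank O H₀.M) n DR.R (Fin (2 ^ r) → H₀.M)) := by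
  classical
  have hQq : ∀ q ∈ (Finset.univ.image qv), ∃ i, qv i = q := fun q h => by
    obtain ⟨i, -, hi⟩ := Finset.mem_image.mp h
    exact ⟨i, hi⟩
  have hqL : ∀ i, ¬ qv i ∣ L := fun i h => hqS i (hLS _ (hq i).out h)
  have hq1 : ∀ i, p ∣ qv i - 1 := fun i => (dvd_pow_self p n.succ_ne_zero).trans (hqn i)
  have hqp : ∀ i, qv i ≠ p := fun i h => hqS i (h ▸ hpS)
  have hqN' : ∀ i, qv i ∣ N := fun i => hN ▸ dvd_mul_of_dvd_right
    (Finset.dvd_prod_of_mem (fun q => q) (Finset.mem_image_of_mem qv (Finset.mem_univ i))) L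
  have hSS : S₀ ⊆ S := hSdef ▸ Finset.subset_union_left
  have hcard : (Finset.univ.image qv).card = r := by
    rw [Finset.card_image_of_injective _ hinj, Finset.card_univ, Fintype.card_fin]
  have hNS : ∀ v : ℕ, v.Prime → v ∣ N → v ∈ S := fun v hv hvN => by
    rw [hN] at hvN
    rcases hv.dvd_mul.mp hvN with h | h
    · exact hSS (hLS v hv h)
    · obtain ⟨q, hq', hvq⟩ := (Nat.prime_iff.1 hv).exists_mem_finset_dvd h
      obtain ⟨i, rfl⟩ := hQq q hq'
      rw [(Nat.prime_dvd_prime_iff_eq hv (hq i).out).1 hvq, hSdef]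
      exact Finset.mem_union_right _ hq'
  have hsq : Squarefree N := by
    rw [hN, Nat.squarefree_mul_iff]
    refine ⟨Nat.Coprime.prod_right fun q hq' => ?_, hL, ?_⟩
    · obtain ⟨i, rfl⟩ := hQq q hq'
      exact ((hq i).out.coprime_iff_not_dvd.2 (hqL i)).symm
    · refine Finset.squarefree_prod_of_pairwise_isCoprime (fun a ha b hb hab => ?_) fun a ha => ?_
      · obtain ⟨i, rfl⟩ := hQq a ha
        obtain ⟨j, rfl⟩ := hQq b hb
        exact Nat.coprime_iff_isRelPrime.1 ((Nat.coprime_primes (hq i).out (hq j).out).2 hab)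
      · obtain ⟨i, rfl⟩ := hQq a ha
        exact (hq i).out.squarefree
  have hbarS : HasCharpolys S abar ρbar := fun ℓ hℓ hℓS => hbar ℓ hℓ fun h => hℓS (hSS h)
  -- the tame elements and the character
  have hdat : ∀ i, ∃ (P : ValuationSubring QBar) (σ : Deform.Gal) (a : (ZMod (qv i))ˣ),
      P.LiesOverPrime (qv i) ∧ IsTameElt p (qv i) P σ ∧ orderOf a = qv i - 1 ∧
        ∀ μ : QBar, μ ^ qv i = 1 → σ μ = μ ^ (a : ZMod (qv i)).val := fun i => by
    obtain ⟨P, hP⟩ := Arith.exists_liesOverPrime (hq i).out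
    obtain ⟨σ, a, hσ, ha, hμ⟩ := exists_generator_tameElt (Fact.out : p.Prime) (hq i).out (hq1 i) hP
    exact ⟨P, σ, a, hP, hσ, ha, hμ⟩
  choose P σ a hP hσ haord haμ using hdat
  obtain ⟨ψ, hψ, hker, hgen⟩ := exists_twPsi (p := p) (n := n) hp2 hinj hqN' hsq
    (fun i => (pow_dvd_pow p n.le_succ).trans (hqn i)) a haord
  choose u hu1 hu2 hu3 using hgen
  haveI : Fintype ((ZMod N)ˣ ⧸ ψ.ker) := Fintype.ofFinite _
  have hneg : -1 ∈ ψ.ker := neg_one_mem_ker ψ hp2 (isPGroup_twGroup p r n)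
  have hs : Module.Setup p ψ S abar :=
    { ne_two := hp2, sqfree := hsq, pGroup := isPGroup_twGroup p r n, surj := hψ, primes := hNS
      notEis := hEis, free := hfree, drop := hdrop }
  obtain ⟨e, heH, heH₀⟩ := Module.exists_localizer_pair (O := O) (ψ := ψ) (S := S) (abar := abar)
  let H : HeckeModule N ψ S abar := Module.heckeModule hs heH heH₀
  obtain ⟨H₁, e₁, he₁⟩ := hlevel ψ.ker hker
  let ε : H₁.M ≃ₗ[O] localPart O e (HomMod O S ψ.ker O) :=
    e₁.trans (LinearEquiv.ofEq _ _ (locSub_eq heH))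
  have hexp : weightExp (twWeight p n (Finset.univ.image qv)) N = halfInvExp (TWGroup p r n) :=
    weightExp_twWeight hinj (NeZero.ne N) (fun i => (hq i).out) hqN'
  have hεop : ∀ (ℓ : {ℓ : ℕ // ℓ.Prime ∧ ℓ ∉ S}) (hℓ : ℓ.1.Coprime N) (x : H₁.M),
      ε (H₁.op ℓ.1 • x) = localAct O e (HomMod O S ψ.ker O)
        (twEl O N S (halfInvExp (TWGroup p r n)) ℓ hℓ) (ε x) := fun ℓ hℓ x =>
    Subtype.ext (by rw [coe_localAct_apply, ← hexp]; exact he₁ ℓ hℓ x)
  -- the old isomorphism at `N`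
  have hQ' : ∀ q ∈ (Finset.univ.image qv), q.Prime ∧ ¬ q ∣ L := fun q hq' => by
    obtain ⟨i, rfl⟩ := hQq q hq'
    exact ⟨(hq i).out, hqL i⟩
  have hsqne : ∀ i, abar (qv i) ^ 2 ≠ ((qv i : ResidueField O) + 1) ^ 2 := fun i =>
    abar_sq_ne hbar (hq i).out (hqS i) (hq1 i) (hfrob i)
  obtain ⟨Pold⟩ := exists_oldIso_of_newforms (O := O) (Finset.univ.image qv) hQ' hN hd hsq hNS hEis
    (fun q hq' => by
      obtain ⟨i, rfl⟩ := hQq q hq'
      obtain ⟨t, ht, htx⟩ := hext i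
      intro inst
      exact crossDet_surjOn_of_op (qv i) t htx (by rw [ht]; exact hsqne i))
    (fun q hq' M g hg hMN hcong hqM => by
      obtain ⟨i, rfl⟩ := hQq q hq'
      haveI : NeZero M := ⟨ne_zero_of_dvd_ne_zero (NeZero.ne N) hMN⟩
      obtain ⟨A, hA⟩ := Arith.exists_liesOverPrime (hq i).out
      obtain ⟨F, hF⟩ := Arith.exists_isFrobeniusAt hA (hq i).out
      have hsqM : ¬ qv i ^ 2 ∣ M := fun h => (hq i).out.not_isUnit
        (hsq _ ((pow_two (qv i)) ▸ h.trans hMN))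
      obtain ⟨hU, hT⟩ := hlocal M (qv i) (hq i).out (hqp i) hqM hsqM
      have key := Eigen.trace_sq_of_congruent ρbar hbarS hg hcong (hq i).out (hqp i) hqM (D M) hU hT
        hA hF
      refine hsqne i ?_
      rw [← key]
      congr 1
      have hch := hbar (qv i) (hq i).out (hqS i) A hA F hF
      rw [EC.FrobTrace.charpoly_of_finrank_eq_two ρbar.finrank_eq] at hch
      have e1 := congrArg (fun F => Polynomial.coeff F 1) hch
      simp [Polynomial.coeff_X_pow] at e1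
      exact e1.symm)
  have hextS : ∀ q ∈ S, q ∉ S₀ → ∀ [Fact q.Prime], ∃ t : OpRing O L S,
      opRes S abar L t = abar q ∧
        ∀ x ∈ locSub O S abar (⊤ : Subgroup (ZMod L)ˣ), heckeH O S q x = t • x := by
    intro q hqS' hq0
    rw [hSdef] at hqS'
    obtain ⟨i, rfl⟩ := hQq q ((Finset.mem_union.mp hqS').resolve_left hq0)
    intro inst
    exact hext i
  let κ : (Fin (2 ^ (Finset.univ.image qv).card) → locSub O S abar (⊤ : Subgroup (ZMod L)ˣ)) ≃ₗ[O]
      (Fin (2 ^ r) → H₀.M) :=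
    (LinearEquiv.piCongrRight fun _ => (locSubEquiv hSS hextS).trans e₀.symm).trans
      (LinearEquiv.funCongrLeft O H₀.M (finCongr (by rw [hcard])))
  let Ψ : localPart O e (HomMod O S (⊤ : Subgroup (ZMod N)ˣ) O) ≃ₗ[O] (Fin (2 ^ r) → H₀.M) :=
    ((LinearEquiv.ofEq _ _ (locSub_eq heH₀).symm).trans Pold.equiv.symm).trans κ
  let c : localPart O e (HomMod O S ψ.ker O) →ₗ[O]
      localPart O e (HomMod O S (⊤ : Subgroup (ZMod N)ˣ) O) :=
    ((coresLin S ψ.ker O).restrictScalars O).restrict fun _ hx =>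
      Module.coresLin_mem_localPart S hx
  let ω : H₁.M →ₗ[O] (Fin (2 ^ r) → H₀.M) := Ψ.toLinearMap ∘ₗ c ∘ₗ ε.toLinearMap
  have hcsurj : Function.Surjective c := fun z => by
    obtain ⟨x, hx, hxz⟩ := Module.exists_coresLin_eq S abar heH hp2 hfree hneg z.2
    exact ⟨⟨x, hx⟩, Subtype.ext hxz⟩
  have hω : Function.Surjective ω := Ψ.surjective.comp (hcsurj.comp ε.surjective)
  have hωop : ∀ ℓ : ℕ, ℓ.Prime → ℓ ∉ S → ∀ x, ω (H₁.op ℓ • x) = H₀.op ℓ • ω x := by
    intro ℓ hℓ hℓS x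
    haveI : Fact ℓ.Prime := ⟨hℓ⟩
    have hℓN : ℓ.Coprime N := hℓ.coprime_iff_not_dvd.2 fun h => hℓS (hNS ℓ hℓ h)
    set t := twEl O N S (halfInvExp (TWGroup p r n)) ⟨ℓ, hℓ, hℓS⟩ hℓN
    set z : locSub O S abar (⊤ : Subgroup (ZMod N)ˣ) :=
      LinearEquiv.ofEq _ _ (locSub_eq heH₀).symm (c (ε x))
    have h1 : (LinearEquiv.ofEq _ _ (locSub_eq heH₀).symm (c (ε (H₁.op ℓ • x))) :
        locSub O S abar (⊤ : Subgroup (ZMod N)ˣ)) =
        ⟨t • (z : HomMod O S (⊤ : Subgroup (ZMod N)ˣ) O), smul_mem_locSub t z.2⟩ := by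
      refine Subtype.ext ?_
      show coresLin S ψ.ker O (ε (H₁.op ℓ • x) : HomMod O S ψ.ker O) = t • _
      rw [hεop ⟨ℓ, hℓ, hℓS⟩ hℓN x, coe_localAct_apply, map_smul]
      rfl
    set v := Pold.equiv.symm z with hv
    have h2 : Pold.equiv.symm ⟨t • (z : HomMod O S (⊤ : Subgroup (ZMod N)ˣ) O),
        smul_mem_locSub t z.2⟩ = fun j =>
          (⟨lowerTo O S hd t • (v j : HomMod O S (⊤ : Subgroup (ZMod L)ˣ) O),
            smul_mem_locSub _ (v j).2⟩ : locSub O S abar (⊤ : Subgroup (ZMod L)ˣ)) := by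
      rw [LinearEquiv.symm_apply_eq]
      refine Subtype.ext ?_
      rw [OldIso.equiv_apply]
      refine ((Pold.deg_smul t fun j => (v j : HomMod O S (⊤ : Subgroup (ZMod L)ˣ) O)).trans ?_).symm
      rw [← OldIso.equiv_apply, hv, LinearEquiv.apply_symm_apply]
    funext j
    show κ (Pold.equiv.symm (LinearEquiv.ofEq _ _ (locSub_eq heH₀).symm
      (c (ε (H₁.op ℓ • x))))) j = H₀.op ℓ • κ v j
    rw [h1, h2]
    set w := v (finCongr (by rw [hcard]) j)
    show e₀.symm (locSubEquiv hSS hextS ⟨lowerTo O S hd t • (w : HomMod O S _ O), _⟩) =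
      H₀.op ℓ • e₀.symm (locSubEquiv hSS hextS w)
    rw [LinearEquiv.symm_apply_eq]
    refine Subtype.ext ?_
    rw [he₀ ⟨ℓ, hℓ, fun h => hℓS (hSS h)⟩, LinearEquiv.apply_symm_apply, coe_locSubEquiv,
      coe_locSubEquiv, changeS_smul hSS]
    have htw : forgetOps O L hSS (lowerTo O S hd t) =
        X (Sum.inl (ZMod.unitsMap hd (ZMod.unitOfCoprime ℓ hℓN ^ halfInvExp (TWGroup p r n)))) *
          X (Sum.inr ⟨ℓ, hℓ, fun h => hℓS (hSS h)⟩) := by
      simp [t, twEl, lowerTo, forgetOps]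
    rw [htw, mul_smul, X_inl_smul]
    exact diamond_top O _ _
  let y : Fin r → Module.End O H₁.M := fun i =>
    ε.symm.conjAlgEquiv O (Module.moduleDia e hψ (twGen p n i))
  have hyε : ∀ i x, ε (y i x) = Module.moduleDia e hψ (twGen p n i) (ε x) := fun i x => by
    show ε (ε.symm (Module.moduleDia e hψ (twGen p n i) (ε.symm.symm x))) = _
    rw [LinearEquiv.apply_symm_apply, LinearEquiv.symm_symm]
  have hkerω : LinearMap.ker ω = ⨆ i, LinearMap.range (y i - 1) := by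
    have hk : ∀ x, x ∈ LinearMap.ker ω ↔
        ε x ∈ ⨆ i, LinearMap.range (Module.moduleDia e hψ (twGen p n i) - 1) := fun x => by
      rw [← coresLin_eq_zero_iff hp2 hfree hneg hψ heH, LinearMap.mem_ker]
      show Ψ (c (ε x)) = 0 ↔ _
      rw [LinearEquiv.map_eq_zero_iff, Subtype.ext_iff]
      rfl
    have hmap : (⨆ i, LinearMap.range (y i - 1)).map ε.toLinearMap =
        ⨆ i, LinearMap.range (Module.moduleDia e hψ (twGen p n i) - 1) := by
      rw [Submodule.map_iSup]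
      refine iSup_congr fun i => ?_
      rw [← LinearMap.range_comp]
      have hc : ε.toLinearMap ∘ₗ (y i - 1) =
          (Module.moduleDia e hψ (twGen p n i) - 1) ∘ₗ ε.toLinearMap := LinearMap.ext fun x => by
        simp [map_sub, hyε]
      rw [hc, LinearMap.range_comp_of_range_eq_top _ (LinearEquiv.range ε)]
    ext x
    rw [hk, ← hmap]
    exact ⟨fun ⟨z, hz, hzx⟩ => ε.injective hzx ▸ hz, fun hx => ⟨x, hx, rfl⟩⟩
  have hdim : H.d = 2 ^ r * Module.finrank O H₀.M := by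
    show Module.finrank O (localPart O e (HomMod O S (⊤ : Subgroup (ZMod N)ˣ) O)) = _
    rw [Ψ.finrank_eq, Module.finrank_pi_fintype]
    simp
  have hdpos : 0 < H.d := hdim ▸ Nat.mul_pos (Nat.two_pow_pos r) Module.finrank_pos
  -- the map to the algebra of the module
  let g : H₁.T →ₐ[O] Module.End O H.M :=
    (ε.conjAlgEquiv O).toAlgHom.comp (Algebra.lsmul O O H₁.M)
  have hgε : ∀ t x, g t (ε x) = ε (t • x) := fun t x => by
    show ε (t • ε.symm (ε x)) = _
    rw [LinearEquiv.symm_apply_apply]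
  have hgop : ∀ (ℓ : ℕ) (hℓ : ℓ.Prime) (hℓS : ℓ ∉ S),
      g (H₁.op ℓ) = (sA H hNS hℓ hℓS).1 := by
    intro ℓ hℓ hℓS
    have hℓN : ℓ.Coprime N := hℓ.coprime_iff_not_dvd.2 fun h => hℓS (hNS ℓ hℓ h)
    have hR : (sA H hNS hℓ hℓS).1 =
        localAct O e (HomMod O S ψ.ker O)
          (twEl O N S (halfInvExp (TWGroup p r n)) ⟨ℓ, hℓ, hℓS⟩ hℓN) :=
      moduleDia_pow_mul_moduleT hψ ⟨ℓ, hℓ, hℓS⟩ hℓN
    rw [hR]
    refine LinearMap.ext fun z => ?_
    obtain ⟨x, rfl⟩ := ε.surjective z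
    rw [hgε, hεop ⟨ℓ, hℓ, hℓS⟩ hℓN]
    rfl
  let f : H₁.T →ₐ[O] H.algebra := g.codRestrict H.algebra fun t => by
    have ht : t ∈ Algebra.adjoin O (H₁.op '' {ℓ | ℓ.Prime ∧ ℓ ∉ S}) :=
      H₁.adjoin_op ▸ Algebra.mem_top
    induction ht using Algebra.adjoin_induction with
    | mem t ht =>
      obtain ⟨ℓ, ⟨hℓ, hℓS⟩, rfl⟩ := ht
      exact (hgop ℓ hℓ hℓS).symm ▸ (sA H hNS hℓ hℓS).2
    | algebraMap c => rw [AlgHom.commutes]; exact Subalgebra.algebraMap_mem _ c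
    | add a b _ _ ha hb => rw [map_add]; exact add_mem ha hb
    | mul a b _ _ ha hb => rw [map_mul]; exact mul_mem ha hb
  have htr : ∀ i x, H₁.ρ.trace (σ i) • x = y i x + (y i ^ (p ^ n - 1)) x := by
    intro i x
    have hbarv : ∀ A : ValuationSubring (AlgebraicClosure ℚ), A.LiesOverPrime (qv i) →
        ∀ τ ∈ A.inertiaSubgroupIn ℚ,
          LinearMap.trace (ResidueField O) ρbar.V (ρbar.ρ τ) = 2 := fun A hA τ hτ => by
      rw [hunr i A hA τ hτ, LinearMap.trace_one, ρbar.finrank_eq, Nat.cast_ofNat]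
    have key := trace_inertia_eq (H := H) hp hp2 (isPGroup_twGroup p r n) hsq (hSS hpS) hNS
      DR.absIrr hbarS D hdpos f H₁.op (fun ℓ hℓ hℓS => Subtype.ext (hgop ℓ hℓ hℓS)) H₁.ρ
      H₁.trace_frobenius (hqN' i) (hqp i) (fun R M _ _ g => hE (qv i) R M g) hES
      (fun M _ h1 h2 => (hlocal M (qv i) (hq i).out (hqp i) h1 h2).1) hbarv (hP i) (hσ i).mem
      (haμ i) (u i) (hu1 i) (by rw [← hu2 i, ZMod.natCast_zmod_val, ZMod.unitsMap_val])
    rw [hu3, inv_eq_of_mul_eq_one_right (b := twGen p n i ^ (p ^ n - 1))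
      (by rw [← pow_succ', Nat.sub_add_cancel (Nat.one_le_pow n p (Fact.out : p.Prime).pos),
        twGen_pow])] at key
    have key' : g (H₁.ρ.trace (σ i)) = Module.moduleDia e hψ (twGen p n i) +
        Module.moduleDia e hψ (twGen p n i ^ (p ^ n - 1)) := congrArg Subtype.val key
    refine ε.injective ?_
    rw [← hgε, key', map_add]
    show Module.moduleDia e hψ (twGen p n i) (ε x) +
      Module.moduleDia e hψ (twGen p n i ^ (p ^ n - 1)) (ε x) = _
    rw [hyε]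
    refine congrArg (Module.moduleDia e hψ (twGen p n i) (ε x) + ·) ?_
    rw [show y i ^ (p ^ n - 1) = ε.symm.conjAlgEquiv O
        (Module.moduleDia e hψ (twGen p n i ^ (p ^ n - 1))) by rw [map_pow, map_pow]]
    show _ = ε (ε.symm (Module.moduleDia e hψ (twGen p n i ^ (p ^ n - 1)) (ε.symm.symm x)))
    rw [LinearEquiv.apply_symm_apply, LinearEquiv.symm_symm]
  rw [← hdim]
  refine exists_twDatum hp2 hp DR hSS H₀ φ hφ hsmul (Nat.two_pow_pos r) (fun i => (hq i).out) hqN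
    hq1 hfrob DQ γ hγ hP hσ H₁ y (fun i j => ?_) (fun i ℓ hℓ hℓS x => ?_) (fun i => ?_)
    (fun i => ε.symm (H.basis i)) (twBasis_bijective ε (Module.moduleDia e hψ) H.basis
      H.basis_bijective) htr ω hω hωop hkerω
  · simp only [y, ← map_mul, mul_comm]
  · have hℓN : ℓ.Coprime N := hℓ.coprime_iff_not_dvd.2 fun h => hℓS (hNS ℓ hℓ h)
    refine ε.injective (Subtype.ext ?_)
    rw [hyε, hεop ⟨ℓ, hℓ, hℓS⟩ hℓN, hεop ⟨ℓ, hℓ, hℓS⟩ hℓN, hyε, ← hu3, ← map_pow ψ,
      Module.moduleDia_psi, coe_localAct_apply, coe_localAct_apply, coe_localAct_apply,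
      coe_localAct_apply, smul_comm]
  · show y i ^ p ^ n = 1
    rw [← map_pow, ← map_pow, twGen_pow, map_one, map_one]

end Fermat.Agent.Lifting.TW

end
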