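import Fermat.Agent.Lifting.TW.Inertia
import Fermat.Agent.Lifting.TW.Kernel
import Fermat.Agent.Lifting.Deform.Universal

/-!
# The deformation ring of a Taylor–Wiles level over the minimal one

For primes `q i ≡ 1 (mod p)` with distinct residual Frobenius eigenvalues the minimal deformation
ring is the quotient of that allowing ramification at the `q i` by elements `t i` with
`t i ² = (1 + t i) (tr ρ(σ i) - 2)`, `σ i` tame at `q i`.
-/

set_option autoImplicit false
set_option linter.style.haveILetI false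

noncomputable section

namespace Fermat.Agent.Lifting.TW

open IsLocalRing Module Polynomial
open Fermat.Agent.Arith (QBar)
open Fermat.Agent.Deform (Gal M2 mapM matOf matRes IsResAlg augment augment_eq_zero_iff map_augment
  exists_rigid exists_lifts_basis isEquiv_symm isCont_matOf)

/-- The trace and determinant of a matrix of an endomorphism with split characteristic
polynomial. -/
theorem trace_det_of_charpoly {k V : Type} [Field k] [AddCommGroup V] [Module k V]
    [Module.Finite k V] [Module.Free k V] (b : Basis (Fin 2) k V) {f : Module.End k V} {α β : k}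
    (h : LinearMap.charpoly f = (X - C α) * (X - C β)) :
    (LinearMap.toMatrixAlgEquiv b f).trace = α + β ∧
      (LinearMap.toMatrixAlgEquiv b f).det = α * β := by
  have hP : X ^ 2 - C (LinearMap.toMatrixAlgEquiv b f).trace * X +
      C (LinearMap.toMatrixAlgEquiv b f).det = X ^ 2 - C (α + β) * X + C (α * β) := by
    rw [← Matrix.charpoly_fin_two, show (LinearMap.toMatrixAlgEquiv b f).charpoly =
      LinearMap.charpoly f from LinearMap.charpoly_toMatrix f b, h, map_add, map_mul]
    ring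
  have h1 := congrArg (fun Q => Polynomial.coeff Q 1) hP
  have h0 := congrArg (fun Q => Polynomial.coeff Q 0) hP
  simp [Polynomial.coeff_X_pow, Polynomial.coeff_C] at h1 h0
  exact ⟨by linear_combination -h1, h0⟩

variable {O : Type} [CommRing O] [IsDomain O] [IsDiscreteValuationRing O]
  [IsAdicComplete (maximalIdeal O) O] [Finite (ResidueField O)]
  {ρbar : ResidualGaloisRep (ResidueField O)} {p : ℕ} [Fact p.Prime]
  {K : PKind} {N : Finset ℕ} {s : ℕ → ℤ}

omit [Finite (ResidueField O)] in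
/-- A cyclotomic determinant is trivial on inertia away from `p`. -/
theorem det_eq_one_of_inertia {A : Type} [CommRing A] [IsLocalRing A] [IsNoetherianRing A]
    {ρ : GaloisRepAdic A} (hdet : ρ.DetIsCyclotomic p) {q : ℕ} (hq : q.Prime) (hqp : q ≠ p)
    {P : ValuationSubring QBar} (hP : P.LiesOverPrime q) {g : Gal}
    (hg : g ∈ P.inertiaSubgroupIn ℚ) : LinearMap.det (ρ.ρ g) = 1 := by
  have key : ∀ k : ℕ, LinearMap.det (ρ.ρ g) - 1 ∈ maximalIdeal A ^ k := fun k => by
    have h := hdet.2 k g 1 fun μ hμ => by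
      rw [pow_one]
      exact Arith.inertia_root hP hq hg hμ fun hd =>
        hqp ((Nat.prime_dvd_prime_iff_eq hq Fact.out).mp (hq.dvd_of_dvd_pow hd))
    rw [Nat.cast_one, Nat.cast_pow] at h
    exact (Ideal.span_singleton_le_iff_mem _).mpr (Ideal.pow_mem_pow hdet.1 k) h
  have h0 : LinearMap.det (ρ.ρ g) - 1 ∈ ⨅ k : ℕ, maximalIdeal A ^ k :=
    Submodule.mem_iInf _ |>.mpr key
  rwa [Ideal.iInf_pow_eq_bot_of_isLocalRing _ (maximalIdeal.isMaximal A).ne_top, Ideal.mem_bot,
    sub_eq_zero] at h0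

/-- **The minimal ring as a quotient of the ring of a level.** -/
theorem exists_levelRing (hp2 : p ≠ 2) (hp : (p : O) ∈ maximalIdeal O)
    (DR : GaloisRep.DeformationRingData O ρbar (liftCondition O p K N ∅ s))
    {r : ℕ} {qv : Fin r → ℕ} (hprime : ∀ i, (qv i).Prime) (hqN : ∀ i, qv i ∉ insert p N)
    (hq1 : ∀ i, p ∣ qv i - 1)
    (hfrob : ∀ i, ∀ P : ValuationSubring QBar, P.LiesOverPrime (qv i) →
      ∀ φ : Gal, P.IsFrobeniusAt φ (qv i) → ∃ α β : ResidueField O, α ≠ β ∧
        LinearMap.charpoly (ρbar.ρ φ) = (X - C α) * (X - C β))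
    (DQ : GaloisRep.DeformationRingData O ρbar (liftCondition O p K N (Finset.univ.image qv) s))
    {P : Fin r → ValuationSubring QBar} (hP : ∀ i, (P i).LiesOverPrime (qv i)) {σ : Fin r → Gal}
    (hσ : ∀ i, IsTameElt p (qv i) (P i) (σ i)) :
    ∃ (π : DQ.R →ₐ[O] DR.R) (hπ : IsLocalHom (π : DQ.R →+* DR.R)) (t : Fin r → DQ.R),
      Function.Surjective π ∧ RingHom.ker π = Ideal.span (Set.range t) ∧
        (∀ i, t i * t i = (1 + t i) * (DQ.ρ.trace (σ i) - 2)) ∧
        (DQ.ρ.baseChangeAlong (π : DQ.R →+* DR.R) hπ).IsEquiv DR.ρ := by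
  classical
  have hqp : ∀ i, qv i ≠ p := fun i h => hqN i (h ▸ Finset.mem_insert_self p N)
  have hpQ : p ∉ Finset.univ.image qv := fun h => by
    obtain ⟨i, -, hi⟩ := Finset.mem_image.mp h
    exact hqp i hi
  have hQN : ∀ q ∈ Finset.univ.image qv, q ∉ N := fun q hq h => by
    obtain ⟨i, -, rfl⟩ := Finset.mem_image.mp hq
    exact hqN i (Finset.mem_insert_of_mem h)
  let bb : Basis (Fin 2) (ResidueField O) ρbar.V :=
    Module.finBasisOfFinrankEq (ResidueField O) ρbar.V ρbar.finrank_eq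
  obtain ⟨W, hW⟩ := exists_rigid ρbar DR.absIrr bb
  have hA : IsResAlg O DQ.R := isResAlg_data DQ
  obtain ⟨b, hl⟩ := exists_lifts_basis hW hA DQ.ρ DQ.residual_isEquiv
  obtain ⟨b₀, hl₀⟩ := exists_lifts_basis hW (isResAlg_data DR) DR.ρ DR.residual_isEquiv
  have hunr0 : ∀ i, DR.ρ.IsUnramifiedAt (qv i) := fun i =>
    DR.isOfType.2.2.1 (qv i) (hprime i) (by rw [Finset.union_empty]; exact hqN i)
  have hres : ∀ i, ∀ P' : ValuationSubring QBar, P'.LiesOverPrime (qv i) →
      ∀ g ∈ P'.inertiaSubgroupIn ℚ, ∀ a c, (matOf DQ.ρ b g - 1) a c ∈ maximalIdeal DQ.R := by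
    intro i P' hP' g hg a c
    have h1 : matOf DR.ρ b₀ g = 1 :=
      (congrArg (LinearMap.toMatrixAlgEquiv b₀) (hunr0 i P' hP' g hg)).trans (map_one _)
    have h2 : W.rb g a c = (1 : M2 (ResidueField O)) a c := by
      rw [← hl₀ g a c, h1, Matrix.one_apply, Matrix.one_apply, apply_ite (augment _), map_one,
        map_zero]
    rw [← augment_eq_zero_iff hA, Matrix.sub_apply, map_sub, hl g a c, h2, Matrix.one_apply,
      Matrix.one_apply, apply_ite (augment hA), map_one, map_zero, sub_self]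
  -- the elements `t i`
  have key : ∀ i, ∃ t ∈ maximalIdeal DQ.R, t * t = (1 + t) * (DQ.ρ.trace (σ i) - 2) ∧
      t ∈ entryIdeal (matOf DQ.ρ b) {σ i} ∧
      ∀ a c, (matOf DQ.ρ b (σ i) - 1) a c ∈ Ideal.span {t} := by
    intro i
    obtain ⟨φ, hφ⟩ := Arith.exists_isFrobeniusAt (hP i) (hprime i)
    obtain ⟨α, β, hαβ, hchar⟩ := hfrob i (P i) (hP i) φ hφ
    obtain ⟨htr, hdet⟩ := trace_det_of_charpoly bb hchar
    have hmap : ∀ x : DQ.R, residue DQ.R x =
        ResidueField.map (algebraMap O DQ.R) (augment hA x) := fun x => (map_augment hA x).symm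
    have hrb : mapM (augment hA : DQ.R →+* ResidueField O) (matOf DQ.ρ b) φ =
        LinearMap.toMatrixAlgEquiv bb (ρbar.ρ φ) := by
      refine (Matrix.ext fun a c => ?_).trans (DFunLike.congr_fun hW φ)
      exact hl φ a c
    have haugtr : augment hA (matOf DQ.ρ b φ).trace = α + β := by
      rw [← htr, ← hrb]
      exact AddMonoidHom.map_trace (augment hA).toLinearMap.toAddMonoidHom _
    have haugdet : augment hA (matOf DQ.ρ b φ).det = α * β := by
      rw [← hdet, ← hrb]
      exact RingHom.map_det (augment hA : DQ.R →+* ResidueField O) _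
    obtain ⟨t, htm, ht, hte, hspan⟩ := exists_inertiaRoot (isCont_matOf DQ.ρ b)
      (natCast_mem_of_isLocalHom hp hA.isLocalHom) (hprime i) (hqp i) (hq1 i) (hres i) (hP i) hφ
      (α := ResidueField.map (algebraMap O DQ.R) α) (β := ResidueField.map (algebraMap O DQ.R) β)
      (fun h => hαβ ((ResidueField.map (algebraMap O DQ.R)).injective h))
      (by rw [hmap, haugtr, map_add]) (by rw [hmap, haugdet, map_mul]) (hσ i)
      ((LinearMap.det_toMatrix b _).trans (det_eq_one_of_inertia DQ.isOfType.1 (hprime i) (hqp i)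
        (hP i) (hσ i).mem))
    refine ⟨t, htm, ?_, hte, hspan (P i) (hP i) (σ i) (hσ i).mem⟩
    rw [ht]
    congr 2
    exact (LinearMap.trace_eq_matrix_trace DQ.R b _).symm
  choose t htm ht hte hspan using key
  refine Exists.elim (exists_surjective_ker_eq_span
    (isDeformationCondition_lift hp2 hp K N (Finset.univ.image qv) s) DQ DR
    (liftCondition_of_minimal (K := K) (Or.inl ⟨hpQ, rfl⟩) hQN DR.isOfType fun h => absurd h hpQ)
    t htm ?_ ?_) fun π ⟨hπ, hsurj, hker, heq⟩ => ⟨π, hπ, t, hsurj, hker, ht, heq⟩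
  · intro φ hφ he i
    have hu : (DQ.ρ.baseChangeAlong (φ : DQ.R →+* DR.R) hφ).IsUnramifiedAt (qv i) :=
      isUnramifiedAt_congr (isEquiv_symm he) (hunr0 i)
    have h1 : mapM (φ : DQ.R →+* DR.R) (matOf DQ.ρ b) (σ i) = 1 := by
      rw [← matOf_bcBasis (φ : DQ.R →+* DR.R) hφ b]
      exact (congrArg (LinearMap.toMatrixAlgEquiv (bcBasis (φ : DQ.R →+* DR.R) hφ b))
        (hu (P i) (hP i) (σ i) (hσ i).mem)).trans (map_one _)
    have hle : entryIdeal (matOf DQ.ρ b) {σ i} ≤ RingHom.ker φ := by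
      rw [entryIdeal, Ideal.span_le]
      rintro _ ⟨⟨⟨g, hg⟩, a, c⟩, rfl⟩
      obtain rfl := Set.mem_singleton_iff.mp hg
      show φ ((matOf DQ.ρ b (σ i) - 1) a c) = 0
      rw [Matrix.sub_apply, map_sub, sub_eq_zero,
        show φ (matOf DQ.ρ b (σ i) a c) = mapM (φ : DQ.R →+* DR.R) (matOf DQ.ρ b) (σ i) a c from rfl,
        h1, Matrix.one_apply, Matrix.one_apply, apply_ite φ, map_one, map_zero]
    exact hle (hte i)
  · intro _ hmk
    haveI : IsLocalHom (algebraMap DQ.R (DQ.R ⧸ Ideal.span (Set.range t))) := hmk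
    haveI : IsAdicComplete (maximalIdeal (DQ.R ⧸ Ideal.span (Set.range t)))
        (DQ.R ⧸ Ideal.span (Set.range t)) :=
      IsLocalRing.isAdicComplete_of_module_finite (𝒪 := DQ.R)
    refine liftCondition_quotient hp2 hp DQ (Or.inl ⟨hpQ, rfl⟩) b (fun q hq _ => ?_)
      (Ideal.Quotient.mkₐ O (Ideal.span (Set.range t))) hmk Ideal.Quotient.mk_surjective
      (fun q hq _ _ => ?_) (fun h => absurd h hpQ)
    · obtain ⟨i, -, rfl⟩ := Finset.mem_image.mp hq
      exact hres i
    · obtain ⟨i, -, rfl⟩ := Finset.mem_image.mp hq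
      refine ⟨P i, σ i, hP i, hσ i, fun a c => Ideal.Quotient.eq_zero_iff_mem.mpr ?_⟩
      exact Ideal.span_mono (Set.singleton_subset_iff.mpr (Set.mem_range_self i)) (hspan i a c)

end Fermat.Agent.Lifting.TW

end
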